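import Mathlib.GroupTheory.Coset.Card
import Mathlib.GroupTheory.GroupAction.Quotient
import Mathlib.Dynamics.PeriodicPts.Defs
import Mathlib.Data.ZMod.QuotientGroup
import Mathlib.Tactic.Group
import Mathlib.Tactic.Abel
import Mathlib.Tactic.FinCases
import Mathlib.GroupTheory.OrderOfElement
import Mathlib.GroupTheory.Perm.Basic
import Mathlib.Algebra.BigOperators.Group.Finset.Basic

/-!
# Cocycles with values in functions on a `G`-set, and their corestriction

Functions are defined on the whole group; the cocycle identity is only required on a subgroup.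
`cores K H D` is the corestriction of `D` from `K` to `H` for `K ≤ H`, computed with the
representatives `Quotient.out`.
-/

set_option autoImplicit false
set_option linter.unusedSectionVars false

noncomputable section

namespace FermatLib.Modular.Residue

open MulAction Finset

variable {G : Type*} [Group G] {Ω : Type*} [MulAction G Ω] {F : Type*} [AddCommGroup F]

/-- `D` satisfies the cocycle identity on `Γ`. -/
def IsCocycleOn (Γ : Subgroup G) (D : G → Ω → F) : Prop :=
  ∀ a ∈ Γ, ∀ b ∈ Γ, ∀ x, D (a * b) x = D a x + D b (a⁻¹ • x)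

/-- `c` is additive on `Γ`. -/
def IsHomOn (Γ : Subgroup G) (c : G → F) : Prop :=
  ∀ a ∈ Γ, ∀ b ∈ Γ, c (a * b) = c a + c b

theorem IsHomOn.mono {Γ Γ' : Subgroup G} (h : Γ' ≤ Γ) {c : G → F} (hc : IsHomOn Γ c) :
    IsHomOn Γ' c := fun a ha b hb => hc a (h ha) b (h hb)

theorem IsHomOn.map_one {Γ : Subgroup G} {c : G → F} (hc : IsHomOn Γ c) : c 1 = 0 := by
  simpa using hc 1 Γ.one_mem 1 Γ.one_mem

theorem IsHomOn.map_inv {Γ : Subgroup G} {c : G → F} (hc : IsHomOn Γ c) {a : G} (ha : a ∈ Γ) :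
    c a⁻¹ = -c a := by
  have h := hc a ha a⁻¹ (Γ.inv_mem ha)
  rw [mul_inv_cancel, hc.map_one] at h
  exact eq_neg_of_add_eq_zero_right h.symm

theorem IsHomOn.map_conj {Γ : Subgroup G} {c : G → F} (hc : IsHomOn Γ c) {a b : G} (ha : a ∈ Γ)
    (hb : b ∈ Γ) : c (a * b * a⁻¹) = c b := by
  rw [hc _ (Γ.mul_mem ha hb) _ (Γ.inv_mem ha), hc a ha b hb, hc.map_inv ha]
  abel

theorem IsHomOn.map_pow {Γ : Subgroup G} {c : G → F} (hc : IsHomOn Γ c) {a : G} (ha : a ∈ Γ)
    (n : ℕ) : c (a ^ n) = n • c a := by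
  induction n with
  | zero => simp [hc.map_one]
  | succ n ih => rw [pow_succ, hc _ (Γ.pow_mem ha n) a ha, ih, succ_nsmul]

theorem IsHomOn.isCocycleOn {Γ : Subgroup G} {c : G → F} (hc : IsHomOn Γ c) :
    IsCocycleOn Γ (fun g (_ : Ω) => c g) := fun a ha b hb _ => hc a ha b hb

namespace IsCocycleOn

variable {Γ : Subgroup G} {D : G → Ω → F}

theorem mono {Γ' : Subgroup G} (h : Γ' ≤ Γ) (hD : IsCocycleOn Γ D) : IsCocycleOn Γ' D :=
  fun a ha b hb => hD a (h ha) b (h hb)

theorem map_one (hD : IsCocycleOn Γ D) (x : Ω) : D 1 x = 0 := by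
  simpa using hD 1 Γ.one_mem 1 Γ.one_mem x

theorem map_inv (hD : IsCocycleOn Γ D) {a : G} (ha : a ∈ Γ) (x : Ω) :
    D a⁻¹ x = -D a (a • x) := by
  have h := hD a ha a⁻¹ (Γ.inv_mem ha) (a • x)
  rw [mul_inv_cancel, hD.map_one, inv_smul_smul] at h
  exact eq_neg_of_add_eq_zero_right h.symm

theorem map_conj (hD : IsCocycleOn Γ D) {a b : G} (ha : a ∈ Γ) (hb : b ∈ Γ) {x : Ω}
    (hx : b • x = x) : D (a * b * a⁻¹) (a • x) = D b x := by
  rw [hD _ (Γ.mul_mem ha hb) _ (Γ.inv_mem ha), hD a ha b hb, inv_smul_smul, hD.map_inv ha]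
  rw [mul_inv_rev, mul_smul, inv_smul_smul, inv_smul_eq_iff.2 hx.symm]
  abel

theorem add {D' : G → Ω → F} (hD : IsCocycleOn Γ D) (hD' : IsCocycleOn Γ D') :
    IsCocycleOn Γ (fun g x => D g x + D' g x) := by
  intro a ha b hb x
  simp only [hD a ha b hb, hD' a ha b hb]
  abel

end IsCocycleOn

variable (K H : Subgroup G)

/-- The element of `K` attached to `g` and the coset `i`. -/
def cosetElt (g : G) (i : G ⧸ K) : G := ((g • i).out)⁻¹ * g * i.out

theorem cosetElt_mem (g : G) (i : G ⧸ K) : cosetElt K g i ∈ K := by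
  rw [cosetElt, mul_assoc, ← QuotientGroup.eq, QuotientGroup.out_eq']
  conv_lhs => rw [← QuotientGroup.out_eq' i]
  rw [MulAction.Quotient.smul_mk, smul_eq_mul]

theorem cosetElt_mul (a b : G) (i : G ⧸ K) :
    cosetElt K (a * b) i = cosetElt K a (b • i) * cosetElt K b i := by
  simp only [cosetElt, mul_smul]
  group

theorem cosetElt_one (i : G ⧸ K) : cosetElt K (1 : G) i = 1 := by
  simp [cosetElt]

theorem smul_inv_out_smul (g : G) (i : G ⧸ K) (x : Ω) :
    (cosetElt K g i)⁻¹ • ((g • i).out)⁻¹ • x = (i.out)⁻¹ • g⁻¹ • x := by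
  simp only [cosetElt, ← mul_smul]
  congr 1
  group

variable [Fintype (G ⧸ K)]

open Classical in
/-- The cosets of `K` contained in `H`. -/
def cosetsIn : Finset (G ⧸ K) := univ.filter fun i => i.out ∈ H

variable {K H}

theorem mk_mem_cosetsIn (hKH : K ≤ H) {g : G} : (g : G ⧸ K) ∈ cosetsIn K H ↔ g ∈ H := by
  classical
  simp only [cosetsIn, mem_filter, mem_univ, true_and]
  have h : ((g : G ⧸ K).out)⁻¹ * g ∈ K := by
    rw [← QuotientGroup.eq, QuotientGroup.out_eq']
  constructor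
  · intro ho
    simpa [← mul_assoc] using H.mul_mem ho (hKH h)
  · intro hg
    have h2 := H.mul_mem hg (H.inv_mem (hKH h))
    simpa [mul_inv_rev, ← mul_assoc] using h2

theorem mem_cosetsIn {i : G ⧸ K} : i ∈ cosetsIn K H ↔ i.out ∈ H := by
  classical
  simp [cosetsIn]

theorem cosetsIn_top : cosetsIn K (⊤ : Subgroup G) = univ := by
  ext i
  simp [mem_cosetsIn]

theorem smul_mem_cosetsIn (hKH : K ≤ H) {g : G} (hg : g ∈ H) {i : G ⧸ K} :
    g • i ∈ cosetsIn K H ↔ i ∈ cosetsIn K H := by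
  obtain ⟨r, rfl⟩ := QuotientGroup.mk_surjective i
  rw [MulAction.Quotient.smul_mk, mk_mem_cosetsIn hKH, mk_mem_cosetsIn hKH, smul_eq_mul]
  exact H.mul_mem_cancel_left hg

theorem sum_cosetsIn_smul (hKH : K ≤ H) {g : G} (hg : g ∈ H) (φ : G ⧸ K → F) :
    ∑ i ∈ cosetsIn K H, φ (g • i) = ∑ i ∈ cosetsIn K H, φ i := by
  refine Finset.sum_nbij' (fun i => g • i) (fun i => g⁻¹ • i) ?_ ?_ ?_ ?_ ?_
  · exact fun i hi => (smul_mem_cosetsIn hKH hg).2 hi
  · exact fun i hi => (smul_mem_cosetsIn hKH (H.inv_mem hg)).2 hi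
  · exact fun i _ => inv_smul_smul g i
  · exact fun i _ => smul_inv_smul g i
  · exact fun i _ => rfl

variable (K H)

/-- Corestriction of a cocycle from `K` to `H`. -/
def cores (D : G → Ω → F) (g : G) (x : Ω) : F :=
  ∑ i ∈ cosetsIn K H, D (cosetElt K g i) (((g • i).out)⁻¹ • x)

/-- Corestriction of an additive function from `K` to `H`. -/
def coresHom (c : G → F) (g : G) : F := ∑ i ∈ cosetsIn K H, c (cosetElt K g i)

variable {K H}

theorem cores_isCocycleOn (hKH : K ≤ H) {D : G → Ω → F} (hD : IsCocycleOn K D) :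
    IsCocycleOn H (cores K H D) := by
  intro a _ b hb x
  simp only [cores]
  rw [← sum_cosetsIn_smul hKH hb
    (fun i => D (cosetElt K a i) (((a • i).out)⁻¹ • x)), ← sum_add_distrib]
  refine sum_congr rfl fun i _ => ?_
  rw [cosetElt_mul, hD _ (cosetElt_mem K a _) _ (cosetElt_mem K b _), mul_smul,
    smul_inv_out_smul]

theorem coresHom_isHomOn (hKH : K ≤ H) {c : G → F} (hc : IsHomOn K c) :
    IsHomOn H (coresHom K H c) := by
  intro a _ b hb
  simp only [coresHom]
  rw [← sum_cosetsIn_smul hKH hb (fun i => c (cosetElt K a i)), ← sum_add_distrib]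
  refine sum_congr rfl fun i _ => ?_
  rw [cosetElt_mul, hc _ (cosetElt_mem K a _) _ (cosetElt_mem K b _)]

theorem coresHom_res (hKH : K ≤ H) {c : G → F} (hc : IsHomOn H c) {g : G} (hg : g ∈ H) :
    coresHom K H c g = (cosetsIn K H).card • c g := by
  have h1 : ∀ i ∈ cosetsIn K H, c (cosetElt K g i) = -c ((g • i).out) + c g + c i.out := by
    intro i hi
    have hgi : (g • i).out ∈ H := mem_cosetsIn.1 ((smul_mem_cosetsIn hKH hg).2 hi)
    rw [cosetElt, hc _ (H.mul_mem (H.inv_mem hgi) hg) _ (mem_cosetsIn.1 hi),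
      hc _ (H.inv_mem hgi) _ hg, hc.map_inv hgi]
  rw [coresHom, sum_congr rfl h1, sum_add_distrib, sum_add_distrib, sum_const, sum_neg_distrib,
    sum_cosetsIn_smul hKH hg (fun i => c i.out)]
  abel

theorem smul_minimalPeriod_pos {X : Type*} [MulAction G X] [Finite X] (g : G) (i : X) :
    0 < Function.minimalPeriod (g • ·) i :=
  Function.IsPeriodicPt.minimalPeriod_pos (orderOf_pos (MulAction.toPermHom G X g)) (by
    show (g • ·)^[orderOf (MulAction.toPermHom G X g)] i = i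
    rw [smul_iterate]
    have h2 := pow_orderOf_eq_one (MulAction.toPermHom G X g)
    rw [← map_pow] at h2
    exact congrArg (fun e : Equiv.Perm X => e i) h2)

theorem zpow_smul_eq_self {X : Type*} [MulAction G X] {g : G} {x : X} (h : g • x = x) (n : ℤ) :
    g ^ n • x = x :=
  (MulAction.stabilizer G x).zpow_mem h n

/-- Telescoping of a corestricted cocycle along the orbit of `i`. -/
theorem sum_range_cosetElt {D : G → Ω → F} (hD : IsCocycleOn K D) (g : G) (x : Ω)
    (i : G ⧸ K) (hinv : ∀ (k : ℕ) (j : ℤ),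
      D (cosetElt K g (g ^ k • i)) (((g • g ^ k • i).out)⁻¹ • g ^ j • x) =
        D (cosetElt K g (g ^ k • i)) (((g • g ^ k • i).out)⁻¹ • x)) (n : ℕ) (j : ℤ) :
    D (cosetElt K (g ^ n) i) (((g ^ n • i).out)⁻¹ • g ^ j • x) =
      ∑ k ∈ range n, D (cosetElt K g (g ^ k • i)) (((g • g ^ k • i).out)⁻¹ • x) := by
  induction n generalizing j with
  | zero => rw [pow_zero, cosetElt_one, hD.map_one, range_zero, sum_empty]
  | succ n ih =>
    rw [pow_succ', cosetElt_mul, hD _ (cosetElt_mem K _ _) _ (cosetElt_mem K _ _), mul_smul,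
      smul_inv_out_smul, sum_range_succ, hinv, ← ih (j - 1), add_comm]
    congr 3
    rw [← zpow_neg_one, smul_smul, ← zpow_add, neg_add_eq_sub]

/-- The sum over one orbit is the value at the first power fixing the coset. -/
theorem sum_orbit_cosetElt {D : G → Ω → F} (hD : IsCocycleOn K D) (g : G) (x : Ω)
    (i : G ⧸ K) (hinv : ∀ (k : ℕ) (j : ℤ),
      D (cosetElt K g (g ^ k • i)) (((g • g ^ k • i).out)⁻¹ • g ^ j • x) =
        D (cosetElt K g (g ^ k • i)) (((g • g ^ k • i).out)⁻¹ • x)) {n : ℕ} (hn : g ^ n • i = i) :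
    D ((i.out)⁻¹ * g ^ n * i.out) ((i.out)⁻¹ • x) =
      ∑ k ∈ range n, D (cosetElt K g (g ^ k • i)) (((g • g ^ k • i).out)⁻¹ • x) := by
  have h := sum_range_cosetElt hD g x i hinv n 0
  rwa [zpow_zero, one_smul, cosetElt, hn] at h

/-- If all orbit values vanish then the corestriction vanishes. -/
theorem cores_eq_zero (hKH : K ≤ H) {D : G → Ω → F} (hD : IsCocycleOn K D) {g : G} (hg : g ∈ H)
    (x : Ω)
    (hinv : ∀ i ∈ cosetsIn K H, ∀ j : ℤ,
      D (cosetElt K g i) (((g • i).out)⁻¹ • g ^ j • x) =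
        D (cosetElt K g i) (((g • i).out)⁻¹ • x))
    (horb : ∀ i ∈ cosetsIn K H, ∀ n : ℕ, g ^ n • i = i →
      D ((i.out)⁻¹ * g ^ n * i.out) ((i.out)⁻¹ • x) = 0) :
    cores K H D g x = 0 := by
  classical
  rw [cores, ← sum_fiberwise_of_maps_to (s := cosetsIn K H)
    (g := fun i => (Quotient.mk (orbitRel (Subgroup.zpowers g) (G ⧸ K)) i))
    (t := (cosetsIn K H).image fun i => (Quotient.mk (orbitRel (Subgroup.zpowers g) (G ⧸ K)) i))
    (fun i hi => mem_image_of_mem _ hi)]
  refine sum_eq_zero fun o ho => ?_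
  obtain ⟨i, hi, rfl⟩ := mem_image.1 ho
  set L := Function.minimalPeriod (g • ·) i with hL
  have hfix : g ^ L • i = i := pow_smul_eq_iff_minimalPeriod_dvd.2 dvd_rfl
  rw [← horb i hi L hfix, sum_orbit_cosetElt hD g x i
    (fun k j => hinv _ ((smul_mem_cosetsIn hKH (H.pow_mem hg k)).2 hi) j) hfix]
  have hset : ((cosetsIn K H).filter fun a =>
      (Quotient.mk (orbitRel (Subgroup.zpowers g) (G ⧸ K)) a) =
        Quotient.mk _ i) = (range L).image fun k => g ^ k • i := by
    ext a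
    simp only [mem_filter, mem_image, mem_range, Quotient.eq, orbitRel_apply, mem_orbit_iff]
    constructor
    · rintro ⟨-, ⟨u, hu⟩, rfl⟩
      obtain ⟨m, rfl⟩ := hu
      have hLpos : 0 < L := smul_minimalPeriod_pos g i
      refine ⟨(m % (L : ℤ)).toNat, ?_, ?_⟩
      · have := Int.emod_lt_of_pos m (Int.natCast_pos.2 hLpos)
        omega
      · rw [← zpow_natCast, Int.toNat_of_nonneg (Int.emod_nonneg _ (by omega))]
        exact zpow_smul_mod_minimalPeriod g i m
    · rintro ⟨k, -, rfl⟩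
      refine ⟨?_, ⟨g ^ k, ⟨k, zpow_natCast g k⟩⟩, rfl⟩
      exact (smul_mem_cosetsIn hKH (H.pow_mem hg k)).2 hi
  rw [hset, sum_image]
  intro k hk l hl hkl
  refine Function.iterate_injOn_Iio_minimalPeriod (f := (g • ·)) (x := i) ?_ ?_ ?_
  · simpa using hk
  · simpa using hl
  · simpa [smul_iterate] using hkl

end FermatLib.Modular.Residue
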