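import Fermat.Agent.Modular.Residue.Nondeg
import Fermat.Agent.Modular.DegeneracyMaps
import Fermat.Agent.Modular.HomsDefs

/-!
# The residue pairing as a bilinear form on cuspidal homomorphisms
-/

set_option autoImplicit false

noncomputable section

namespace FermatLib.Modular.Residue

open Matrix Matrix.SpecialLinearGroup
open scoped MatrixGroups
open FermatLib.Modular (IsCuspidalHom cuspidalHoms)
open FermatLib.Modular.Degeneracy (extFun extFun_of_mem extFun_coe isHomOn_extFun)

local notation "M2Z" => Matrix (Fin 2) (Fin 2) ℤ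

variable {F : Type*} [CommRing F] {Γ : Subgroup SL(2, ℤ)}

theorem isPar_extFun {φ : Additive Γ →+ F} (hφ : IsCuspidalHom φ) : IsPar Γ (extFun φ) where
  hom := isHomOn_extFun φ
  torsion e he ho := by
    rw [extFun_of_mem φ he]
    exact hφ _ (trace_sq_le_four_of_isOfFinOrder ho)
  cusps γ hγ x hx := by
    rw [extFun_of_mem φ hγ]
    exact hφ _ (trace_sq_eq_four_of_smul_eq hx).le

theorem isCuspidalHom_of_isPar {φ : Additive Γ →+ F} {c : SL(2, ℤ) → F} (hc : IsPar Γ c)
    (h : ∀ γ : Γ, φ (Additive.ofMul γ) = c γ) : IsCuspidalHom φ := by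
  intro γ hγ
  rw [h]
  rcases isOfFinOrder_or_exists_fix hγ with ho | ⟨x, hx⟩
  · exact hc.torsion _ γ.2 ho
  · exact hc.cusps _ γ.2 x hx

variable [Γ.FiniteIndex] (hneg : -1 ∈ Γ)

/-- The residue pairing on cuspidal homomorphisms. -/
def cuspForm : cuspidalHoms F Γ F →ₗ[F] cuspidalHoms F Γ F →ₗ[F] F :=
  LinearMap.mk₂ F (fun φ ψ => cuspPair hneg (extFun φ.1) (extFun ψ.1))
    (fun a b c => by
      rw [← cuspPair_add_left hneg (isPar_extFun a.2) (isPar_extFun b.2) (isPar_extFun c.2)]
      refine cuspPair_congr hneg ((isPar_extFun a.2).add (isPar_extFun b.2)) (isPar_extFun c.2)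
        (fun γ hγ => ?_) (fun _ _ => rfl)
      simp [extFun_of_mem _ hγ])
    (fun r a c => by
      rw [smul_eq_mul, ← cuspPair_smul_left hneg (isPar_extFun a.2) (isPar_extFun c.2)]
      refine cuspPair_congr hneg ((isPar_extFun a.2).smul r) (isPar_extFun c.2)
        (fun γ hγ => ?_) (fun _ _ => rfl)
      simp [extFun_of_mem _ hγ])
    (fun a b c => by
      rw [← cuspPair_add_right hneg (isPar_extFun a.2) (isPar_extFun b.2) (isPar_extFun c.2)]
      refine cuspPair_congr hneg (isPar_extFun a.2) ((isPar_extFun b.2).add (isPar_extFun c.2))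
        (fun _ _ => rfl) (fun γ hγ => ?_)
      simp [extFun_of_mem _ hγ])
    (fun r a c => by
      rw [smul_eq_mul, ← cuspPair_smul_right hneg (isPar_extFun a.2) (isPar_extFun c.2)]
      refine cuspPair_congr hneg (isPar_extFun a.2) ((isPar_extFun c.2).smul r)
        (fun _ _ => rfl) (fun γ hγ => ?_)
      simp [extFun_of_mem _ hγ])

theorem cuspForm_apply (φ ψ : cuspidalHoms F Γ F) :
    cuspForm hneg φ ψ = cuspPair hneg (extFun φ.1) (extFun ψ.1) := rfl

theorem cuspForm_injective {K : Type*} [Field K] :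
    Function.Injective (cuspForm (F := K) hneg) := by
  rw [injective_iff_map_eq_zero]
  intro φ hφ
  have key : ∀ c, IsPar Γ c → cuspPair hneg (extFun φ.1) c = 0 := by
    intro c hc
    set ψ : Additive Γ →+ K := AddMonoidHom.mk' (fun γ => c (Additive.toMul γ).1)
      (fun a b => hc.hom _ (Additive.toMul a).2 _ (Additive.toMul b).2) with hψ
    have hmem : ψ ∈ cuspidalHoms K Γ K := isCuspidalHom_of_isPar hc fun γ => rfl
    have h := LinearMap.congr_fun hφ ⟨ψ, hmem⟩
    rw [LinearMap.zero_apply, cuspForm_apply] at h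
    rw [← h]
    exact (cuspPair_congr hneg (isPar_extFun φ.2) hc (fun _ _ => rfl)
      fun γ hγ => by rw [extFun_of_mem _ hγ]; rfl).symm
  refine Subtype.ext (AddMonoidHom.ext fun γ => ?_)
  obtain ⟨g, rfl⟩ := Additive.ofMul.surjective γ
  rw [← extFun_coe φ.1 g]
  exact cuspPair_nondegenerate hneg (isPar_extFun φ.2) key _ g.2

theorem cuspForm_surjective {K : Type*} [Field K] [FiniteDimensional K (cuspidalHoms K Γ K)] :
    Function.Surjective (cuspForm (F := K) hneg) :=
  (LinearMap.injective_iff_surjective_of_finrank_eq_finrank Subspace.dual_finrank_eq.symm).1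
    (cuspForm_injective hneg)

/-- Conjugate matrices have proportional orientation forms. -/
theorem trace_eq_of_mul_eq {A g h : M2Z} (hA : A.det ≠ 0) (hh : h * A = A * g) :
    h.trace = g.trace := by
  have e := congrArg (fun X => Matrix.trace (X * A.adjugate)) hh
  simp only [Matrix.mul_assoc, Matrix.mul_adjugate, Matrix.mul_smul, mul_one,
    Matrix.trace_smul] at e
  rw [Matrix.trace_mul_comm, Matrix.mul_assoc, Matrix.adjugate_mul, Matrix.mul_smul, mul_one,
    Matrix.trace_smul] at e
  exact mul_left_cancel₀ hA e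

theorem orientForm_of_mul_eq {A g h : M2Z} (hA : A.det ≠ 0) (hh : h * A = A * g) (x y : ℤ) :
    orientForm h (A 0 0 * x + A 0 1 * y) (A 1 0 * x + A 1 1 * y) =
      A.det * orientForm g x y := by
  have e := fun i j => congrFun (congrFun hh i) j
  have e00 := e 0 0
  have e01 := e 0 1
  have e10 := e 1 0
  have e11 := e 1 1
  simp only [Matrix.mul_apply, Fin.sum_univ_two] at e00 e01 e10 e11
  simp only [orientForm, trace_eq_of_mul_eq hA hh, Matrix.det_fin_two]
  linear_combination g.trace * (A 0 0 * x + A 0 1 * y) * (x * e10 + y * e11) -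
    g.trace * (A 1 0 * x + A 1 1 * y) * (x * e00 + y * e01)

theorem isPos_of_mul_eq {A : M2Z} {g h : SL(2, ℤ)} (hA : 0 < A.det)
    (hh : (h : M2Z) * A = A * (g : M2Z)) (hg : IsPos g) : IsPos h := by
  intro x y
  have e := orientForm_of_mul_eq hA.ne' hh (A 1 1 * x - A 0 1 * y) (-(A 1 0) * x + A 0 0 * y)
  have hg' := hg (A 1 1 * x - A 0 1 * y) (-(A 1 0) * x + A 0 0 * y)
  have hdet := Matrix.det_fin_two A
  have e' : orientForm (h : M2Z) (A.det * x) (A.det * y) ≤ 0 := by
    have h1 : A.det * x = A 0 0 * (A 1 1 * x - A 0 1 * y) + A 0 1 * (-(A 1 0) * x + A 0 0 * y) := by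
      rw [hdet]; ring
    have h2 : A.det * y = A 1 0 * (A 1 1 * x - A 0 1 * y) + A 1 1 * (-(A 1 0) * x + A 0 0 * y) := by
      rw [hdet]; ring
    rw [h1, h2, e]
    exact mul_nonpos_of_nonneg_of_nonpos hA.le hg'
  have e'' : orientForm (h : M2Z) (A.det * x) (A.det * y) = A.det ^ 2 * orientForm h x y := by
    simp only [orientForm]; ring
  rw [e''] at e'
  by_contra hc
  have := mul_pos (pow_pos hA 2) (not_le.1 hc)
  linarith

end FermatLib.Modular.Residue
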