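import Mathlib.NumberTheory.ModularForms.Cusps
import Mathlib.NumberTheory.Modular
import Mathlib.GroupTheory.Index
import Mathlib.LinearAlgebra.Matrix.FixedDetMatrices
import Mathlib.Tactic.LinearCombination

/-!
# Rational cusps, positively oriented stabilisers
-/

set_option autoImplicit false

noncomputable section

namespace FermatLib.Modular.Residue

open Matrix Matrix.SpecialLinearGroup ModularGroup
open scoped MatrixGroups

/-- The set `ℙ¹(ℚ)`. -/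
def CuspPt : Type := OnePoint ℚ

/-- The point at infinity. -/
def cuspInfty : CuspPt := (OnePoint.infty : OnePoint ℚ)

/-- The action of `GL(2, ℚ)` on `ℙ¹(ℚ)`. -/
instance instGLCuspPt : MulAction (GL (Fin 2) ℚ) CuspPt :=
  inferInstanceAs (MulAction (GL (Fin 2) ℚ) (OnePoint ℚ))

/-- The action of `SL(2, ℤ)` on `ℙ¹(ℚ)`. -/
instance instSLCuspPt : MulAction SL(2, ℤ) CuspPt :=
  MulAction.compHom CuspPt (mapGL ℚ : SL(2, ℤ) →* GL (Fin 2) ℚ)

theorem exists_smul_cuspInfty (x : CuspPt) : ∃ g : SL(2, ℤ), g • cuspInfty = x :=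
  OnePoint.exists_mem_SL2 ℤ (x : OnePoint ℚ)

theorem smul_cuspInfty_eq_iff {g : SL(2, ℤ)} : g • cuspInfty = cuspInfty ↔ g 1 0 = 0 := by
  show (mapGL ℚ g) • (OnePoint.infty : OnePoint ℚ) = OnePoint.infty ↔ _
  rw [OnePoint.smul_infty_eq_self_iff]
  simp

theorem neg_one_smul_cusp (x : CuspPt) : (-1 : SL(2, ℤ)) • x = x := by
  have h : ∀ y : OnePoint ℚ, (mapGL ℚ (-1 : SL(2, ℤ))) • y = y := by
    intro y
    induction y using OnePoint.rec with
    | infty => rw [OnePoint.smul_infty_eq_self_iff]; simp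
    | coe k => rw [OnePoint.smul_some_eq_ite]; simp
  exact h x

theorem neg_smul_cusp (g : SL(2, ℤ)) (x : CuspPt) : (-g) • x = g • x := by
  rw [← neg_one_mul, mul_smul, neg_one_smul_cusp]

theorem T_zpow_smul_cuspInfty (n : ℤ) : (T ^ n) • cuspInfty = cuspInfty := by
  rw [smul_cuspInfty_eq_iff]
  simp [coe_T_zpow]

theorem exists_T_zpow_of_smul_cuspInfty {g : SL(2, ℤ)} (h : g • cuspInfty = cuspInfty) :
    ∃ n : ℤ, g = T ^ n ∨ g = -T ^ n := by
  rw [smul_cuspInfty_eq_iff] at h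
  have had := g.det_coe
  rw [det_fin_two, h] at had
  replace had : g 0 0 * g 1 1 = 1 := by linarith
  rcases Int.eq_one_or_neg_one_of_mul_eq_one' had with (⟨ha, hd⟩ | ⟨ha, hd⟩)
  · refine ⟨g 0 1, Or.inl ?_⟩
    ext i j
    fin_cases i <;> fin_cases j <;> simp [ha, h, hd, coe_T_zpow]
  · refine ⟨-(g 0 1), Or.inr ?_⟩
    ext i j
    fin_cases i <;> fin_cases j <;> simp [ha, h, hd, coe_T_zpow]

theorem T_zpow_eq_or_neg_iff {m n : ℤ} :
    (T ^ m : SL(2, ℤ)) = T ^ n ∨ (T ^ m : SL(2, ℤ)) = -T ^ n ↔ m = n := by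
  constructor
  · rintro (h | h)
    · have := congrArg (fun g : SL(2, ℤ) => g 0 1) h
      simpa [coe_T_zpow] using this
    · have := congrArg (fun g : SL(2, ℤ) => g 0 0) h
      simp [coe_T_zpow] at this
  · rintro rfl
    exact Or.inl rfl

/-- The trace times the symplectic form `v ↦ det (v, g v)`. -/
def orientForm (g : Matrix (Fin 2) (Fin 2) ℤ) (x y : ℤ) : ℤ :=
  g.trace * (g 1 0 * x ^ 2 + (g 1 1 - g 0 0) * x * y - g 0 1 * y ^ 2)

/-- `g` moves positively. -/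
def IsPos (g : SL(2, ℤ)) : Prop := ∀ x y : ℤ, orientForm g x y ≤ 0

theorem isPos_neg_iff {g : SL(2, ℤ)} : IsPos (-g) ↔ IsPos g := by
  have h : ∀ x y, orientForm ((-g : SL(2, ℤ)) : Matrix (Fin 2) (Fin 2) ℤ) x y =
      orientForm g x y := by
    intro x y
    simp only [orientForm, Matrix.SpecialLinearGroup.coe_neg, Matrix.trace_neg, Matrix.neg_apply]
    ring
  simp only [IsPos, h]

theorem isPos_T_zpow_iff {n : ℤ} : IsPos (T ^ n) ↔ 0 ≤ n := by
  constructor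
  · intro h
    have h2 := h 0 1
    simp [orientForm, coe_T_zpow, Matrix.trace_fin_two] at h2
    linarith
  · intro hn x y
    simp [orientForm, coe_T_zpow, Matrix.trace_fin_two]
    nlinarith [sq_nonneg y]

theorem orientForm_conj (r g : SL(2, ℤ)) (x y : ℤ) :
    orientForm ((r * g * r⁻¹ : SL(2, ℤ)) : Matrix (Fin 2) (Fin 2) ℤ) x y =
      orientForm g (r 1 1 * x - r 0 1 * y) (-(r 1 0) * x + r 0 0 * y) := by
  have hdet := r.det_coe
  rw [det_fin_two] at hdet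
  simp only [orientForm, coe_mul, coe_inv, Matrix.mul_apply, Matrix.trace_fin_two,
    Fin.sum_univ_two, adjugate_fin_two, Matrix.of_apply, Matrix.cons_val', Matrix.cons_val_zero,
    Matrix.cons_val_one, Matrix.empty_val', Matrix.cons_val_fin_one]
  linear_combination ((g 0 0 + g 1 1) * (g 1 0 * (r 1 1 * x - r 0 1 * y) ^ 2 +
      (g 1 1 - g 0 0) * (r 1 1 * x - r 0 1 * y) * (-(r 1 0) * x + r 0 0 * y) -
      g 0 1 * (-(r 1 0) * x + r 0 0 * y) ^ 2)) * hdet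

theorem IsPos.conj {g : SL(2, ℤ)} (h : IsPos g) (r : SL(2, ℤ)) : IsPos (r * g * r⁻¹) := by
  intro x y
  rw [orientForm_conj]
  exact h _ _

theorem isPos_conj_iff {g r : SL(2, ℤ)} : IsPos (r * g * r⁻¹) ↔ IsPos g := by
  refine ⟨fun h => ?_, fun h => h.conj r⟩
  simpa [mul_assoc] using h.conj r⁻¹

/-- `P` generates the stabiliser of `x` in `Γ` up to sign and moves positively. -/
structure IsPosGen (Γ : Subgroup SL(2, ℤ)) (x : CuspPt) (P : SL(2, ℤ)) : Prop where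
  mem : P ∈ Γ
  fix : P • x = x
  pos : IsPos P
  gen : ∀ γ ∈ Γ, γ • x = x → ∃ n : ℤ, γ = P ^ n ∨ γ = -P ^ n

theorem mem_of_neg_mem {Γ : Subgroup SL(2, ℤ)} (hneg : -1 ∈ Γ) {g : SL(2, ℤ)} (h : -g ∈ Γ) :
    g ∈ Γ := by
  simpa using Γ.mul_mem hneg h

theorem neg_mem_iff' {Γ : Subgroup SL(2, ℤ)} (hneg : -1 ∈ Γ) {g : SL(2, ℤ)} : -g ∈ Γ ↔ g ∈ Γ :=
  ⟨mem_of_neg_mem hneg, fun h => by simpa using Γ.mul_mem hneg h⟩

theorem exists_conj_T_zpow_of_fix {x : CuspPt} {r γ : SL(2, ℤ)} (hr : r • cuspInfty = x)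
    (hγ : γ • x = x) : ∃ n : ℤ, γ = r * T ^ n * r⁻¹ ∨ γ = -(r * T ^ n * r⁻¹) := by
  have h : (r⁻¹ * γ * r) • cuspInfty = cuspInfty := by
    rw [mul_smul, mul_smul, hr, hγ, inv_smul_eq_iff, hr]
  obtain ⟨n, hn⟩ := exists_T_zpow_of_smul_cuspInfty h
  refine ⟨n, ?_⟩
  rcases hn with hn | hn
  · left; rw [← hn]; group
  · right
    rw [← neg_mul, ← mul_neg, ← hn]
    group

theorem conj_T_zpow_smul {x : CuspPt} {r : SL(2, ℤ)} (hr : r • cuspInfty = x) (n : ℤ) :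
    (r * T ^ n * r⁻¹) • x = x := by
  rw [← hr, mul_smul, mul_smul, inv_smul_smul, T_zpow_smul_cuspInfty]

theorem exists_pow_T_conj_mem (Γ : Subgroup SL(2, ℤ)) [Γ.FiniteIndex] (r : SL(2, ℤ)) :
    ∃ n : ℕ, 0 < n ∧ r * T ^ (n : ℤ) * r⁻¹ ∈ Γ := by
  obtain ⟨n, hn, -, h⟩ :=
    Subgroup.exists_pow_mem_of_index_ne_zero (Subgroup.FiniteIndex.index_ne_zero (H := Γ))
      (r * T * r⁻¹)
  exact ⟨n, hn, by rw [zpow_natCast, ← conj_pow]; exact h⟩

theorem exists_isPosGen (Γ : Subgroup SL(2, ℤ)) [Γ.FiniteIndex] (hneg : -1 ∈ Γ) (x : CuspPt) :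
    ∃ P, IsPosGen Γ x P := by
  classical
  obtain ⟨r, hr⟩ := exists_smul_cuspInfty x
  have hex := exists_pow_T_conj_mem Γ r
  set a := Nat.find hex with ha
  obtain ⟨hapos, hamem⟩ := Nat.find_spec hex
  rw [← ha] at hapos hamem
  refine ⟨r * T ^ (a : ℤ) * r⁻¹, hamem, conj_T_zpow_smul hr _,
    (isPos_T_zpow_iff.2 (Int.natCast_nonneg a)).conj r, fun γ hγ hγx => ?_⟩
  obtain ⟨n, hn⟩ := exists_conj_T_zpow_of_fix hr hγx
  have hnmem : r * T ^ n * r⁻¹ ∈ Γ := by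
    rcases hn with rfl | rfl
    · exact hγ
    · exact mem_of_neg_mem hneg hγ
  have hdvd : n % (a : ℤ) = 0 := by
    by_contra hne
    have hlt := Int.emod_lt_of_pos n (Int.natCast_pos.2 hapos)
    have hnn := Int.emod_nonneg n (Int.natCast_ne_zero.2 hapos.ne')
    have hmem : r * T ^ (n % (a : ℤ)) * r⁻¹ ∈ Γ := by
      have he : r * T ^ (n % (a : ℤ)) * r⁻¹ =
          (r * T ^ (a : ℤ) * r⁻¹) ^ (-(n / (a : ℤ))) * (r * T ^ n * r⁻¹) := by
        rw [conj_zpow, ← zpow_mul, Int.emod_def,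
          show (a : ℤ) * -(n / (a : ℤ)) = -((a : ℤ) * (n / (a : ℤ))) by ring, zpow_neg,
          zpow_sub]
        group
      rw [he]
      exact Γ.mul_mem (Γ.zpow_mem hamem _) hnmem
    have := Nat.find_min' hex (m := (n % (a : ℤ)).toNat)
      ⟨by omega, by rw [Int.toNat_of_nonneg hnn]; exact hmem⟩
    omega
  refine ⟨n / (a : ℤ), ?_⟩
  have he : (r * T ^ (a : ℤ) * r⁻¹) ^ (n / (a : ℤ)) = r * T ^ n * r⁻¹ := by
    rw [conj_zpow, ← zpow_mul, Int.mul_ediv_cancel' (Int.dvd_of_emod_eq_zero hdvd)]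
  rwa [he]

theorem IsPosGen.exists_normalForm {Γ : Subgroup SL(2, ℤ)} [Γ.FiniteIndex] {x : CuspPt}
    {P : SL(2, ℤ)} (hP : IsPosGen Γ x P) {r : SL(2, ℤ)} (hr : r • cuspInfty = x) :
    ∃ a : ℤ, 0 < a ∧ (P = r * T ^ a * r⁻¹ ∨ P = -(r * T ^ a * r⁻¹)) ∧
      ∀ n : ℤ, r * T ^ n * r⁻¹ ∈ Γ → a ∣ n := by
  obtain ⟨a, ha⟩ := exists_conj_T_zpow_of_fix hr hP.fix
  have hnn : 0 ≤ a := by
    have h : IsPos (r * T ^ a * r⁻¹) := by
      rcases ha with rfl | rfl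
      · exact hP.pos
      · exact isPos_neg_iff.1 hP.pos
    exact isPos_T_zpow_iff.1 (isPos_conj_iff.1 h)
  have hdvd : ∀ n : ℤ, r * T ^ n * r⁻¹ ∈ Γ → a ∣ n := by
    intro n hn
    obtain ⟨k, hk⟩ := hP.gen _ hn (conj_T_zpow_smul hr n)
    refine ⟨k, (T_zpow_eq_or_neg_iff (m := n) (n := a * k)).1 ?_⟩
    have hcases : r * T ^ n * r⁻¹ = r * T ^ (a * k) * r⁻¹ ∨
        r * T ^ n * r⁻¹ = r * -T ^ (a * k) * r⁻¹ := by
      have hPk : P ^ k = r * T ^ (a * k) * r⁻¹ ∨ P ^ k = r * -T ^ (a * k) * r⁻¹ := by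
        rcases ha with rfl | rfl
        · left; rw [conj_zpow, zpow_mul]
        · rcases Int.even_or_odd k with he | ho
          · left; rw [he.neg_zpow, conj_zpow, zpow_mul]
          · right; rw [ho.neg_zpow, conj_zpow, zpow_mul, mul_neg, neg_mul]
      rcases hk with hk | hk <;> rcases hPk with h | h <;> rw [hk, h] <;>
        simp [mul_neg, neg_mul]
    rcases hcases with h | h
    · exact Or.inl (mul_left_cancel (mul_right_cancel h))
    · exact Or.inr (mul_left_cancel (mul_right_cancel h))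
  obtain ⟨m, hm, hmem⟩ := exists_pow_T_conj_mem Γ r
  refine ⟨a, lt_of_le_of_ne hnn fun h0 => ?_, ha, hdvd⟩
  have := hdvd _ hmem
  rw [← h0, zero_dvd_iff] at this
  omega

theorem IsPosGen.eq_or_eq_neg {Γ : Subgroup SL(2, ℤ)} [Γ.FiniteIndex] (hneg : -1 ∈ Γ) {x : CuspPt}
    {P P' : SL(2, ℤ)} (hP : IsPosGen Γ x P) (hP' : IsPosGen Γ x P') : P' = P ∨ P' = -P := by
  obtain ⟨r, hr⟩ := exists_smul_cuspInfty x
  obtain ⟨a, ha0, ha, had⟩ := hP.exists_normalForm hr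
  obtain ⟨b, hb0, hb, hbd⟩ := hP'.exists_normalForm hr
  have hamem : r * T ^ a * r⁻¹ ∈ Γ := by
    rcases ha with rfl | rfl
    · exact hP.mem
    · exact mem_of_neg_mem hneg hP.mem
  have hbmem : r * T ^ b * r⁻¹ ∈ Γ := by
    rcases hb with rfl | rfl
    · exact hP'.mem
    · exact mem_of_neg_mem hneg hP'.mem
  have hab : a = b :=
    Int.dvd_antisymm ha0.le hb0.le (had b hbmem) (hbd a hamem)
  subst hab
  rcases ha with rfl | rfl <;> rcases hb with rfl | rfl <;> simp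

theorem IsPosGen.conj {Γ : Subgroup SL(2, ℤ)} {x : CuspPt} {P : SL(2, ℤ)} (hP : IsPosGen Γ x P)
    {h : SL(2, ℤ)} (hh : h ∈ Γ) : IsPosGen Γ (h • x) (h * P * h⁻¹) where
  mem := Γ.mul_mem (Γ.mul_mem hh hP.mem) (Γ.inv_mem hh)
  fix := by rw [mul_smul, mul_smul, inv_smul_smul, hP.fix]
  pos := hP.pos.conj h
  gen γ hγ hγx := by
    obtain ⟨n, hn⟩ := hP.gen (h⁻¹ * γ * h) (Γ.mul_mem (Γ.mul_mem (Γ.inv_mem hh) hγ) hh)
      (by rw [mul_smul, mul_smul, hγx, inv_smul_smul])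
    refine ⟨n, ?_⟩
    rcases hn with hn | hn
    · left; rw [conj_zpow, ← hn]; group
    · right; rw [conj_zpow, ← neg_mul, ← mul_neg, ← hn]; group

theorem isPosGen_top_T : IsPosGen ⊤ cuspInfty T where
  mem := trivial
  fix := by simpa using T_zpow_smul_cuspInfty 1
  pos := by simpa using (isPos_T_zpow_iff (n := 1)).2 one_pos.le
  gen _ _ h := exists_T_zpow_of_smul_cuspInfty h

end FermatLib.Modular.Residue
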