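import Fermat.Agent.Modular.Residue.Primitive
import Fermat.Agent.Modular.HomsCocycle

/-!
# Existence of primitives, and the residue formula along the edge `{0, ∞}`
-/

set_option autoImplicit false
set_option linter.unusedSectionVars false
set_option linter.style.haveILetI false

noncomputable section

namespace FermatLib.Modular.Residue

open Matrix Matrix.SpecialLinearGroup ModularGroup Finset
open scoped MatrixGroups

variable {F : Type*} [CommRing F] {Γ : Subgroup SL(2, ℤ)}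

theorem neg_one_smul_coset (hneg : -1 ∈ Γ) (i : SL(2, ℤ) ⧸ Γ) : (-1 : SL(2, ℤ)) • i = i := by
  obtain ⟨r, rfl⟩ := QuotientGroup.mk_surjective i
  rw [MulAction.Quotient.smul_mk, QuotientGroup.eq, smul_eq_mul]
  simpa using hneg

theorem neg_one_smul_pair (hneg : -1 ∈ Γ) (p : (SL(2, ℤ) ⧸ Γ) × CuspPt) :
    (-1 : SL(2, ℤ)) • p = p :=
  Prod.ext (neg_one_smul_coset hneg p.1) (neg_one_smul_cusp p.2)

/-- The base coset. -/
def baseCoset (Γ : Subgroup SL(2, ℤ)) : SL(2, ℤ) ⧸ Γ := ((1 : SL(2, ℤ)) : SL(2, ℤ) ⧸ Γ)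

theorem out_baseCoset_mem : (baseCoset Γ).out ∈ Γ := by
  have h : ((baseCoset Γ).out)⁻¹ * 1 ∈ Γ := by
    rw [← QuotientGroup.eq, QuotientGroup.out_eq']; rfl
  simpa using h

theorem smul_baseCoset_eq_iff {γ : SL(2, ℤ)} : γ • baseCoset Γ = baseCoset Γ ↔ γ ∈ Γ := by
  rw [baseCoset, MulAction.Quotient.smul_mk, QuotientGroup.eq]
  simp

/-- The cocycle on cosets attached to `c`. -/
def inducedCocycle (Γ : Subgroup SL(2, ℤ)) (c : SL(2, ℤ) → F) (g : SL(2, ℤ))
    (q : SL(2, ℤ) ⧸ Γ) : F := c (cosetElt Γ g q)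

variable {c μ : SL(2, ℤ) → F} {f : CuspPt → F}

theorem isShapiroCocycle_induced (hc : IsHomOn Γ c) : IsShapiroCocycle (inducedCocycle Γ c) := by
  intro x y q
  rw [inducedCocycle, cosetElt_mul, hc _ (cosetElt_mem Γ x _) _ (cosetElt_mem Γ y _)]
  rfl

theorem inducedCocycle_baseCoset (hc : IsHomOn Γ c) {γ : SL(2, ℤ)} (hγ : γ ∈ Γ) :
    inducedCocycle Γ c γ (baseCoset Γ) = c γ := by
  rw [inducedCocycle, cosetElt, smul_baseCoset_eq_iff.2 hγ]
  simpa using hc.map_conj (Γ.inv_mem out_baseCoset_mem) hγ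

theorem inducedCocycle_eq_zero (hc : IsEl Γ c) {x : SL(2, ℤ)} (hx : IsOfFinOrder x)
    {q : SL(2, ℤ) ⧸ Γ} (hq : x • q = q) : inducedCocycle Γ c x q = 0 := by
  refine hc.torsion _ (cosetElt_mem Γ x q) ?_
  rw [cosetElt, hq]
  simpa using isOfFinOrder_conj_iff (g := (q.out)⁻¹).2 hx

theorem exists_cobdry_induced (hc : IsEl Γ c) {u : SL(2, ℤ)} (hu : IsOfFinOrder u) :
    ∃ m : SL(2, ℤ) ⧸ Γ → F, ∀ q, m q - m (u • q) = inducedCocycle Γ c u q :=
  (isShapiroCocycle_induced hc.hom).exists_cobdry u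
    fun k _ hq => inducedCocycle_eq_zero hc (isOfFinOrder_zpow hu k) hq

/-- The potential at the coset `q`. -/
def cosetPotential (Γ : Subgroup SL(2, ℤ)) (f : CuspPt → F) (q : SL(2, ℤ) ⧸ Γ) (x : CuspPt) : F :=
  f ((q.out)⁻¹ • x)

theorem cosetPotential_smul (hf : IsPotential Γ μ f) (g : SL(2, ℤ)) (q : SL(2, ℤ) ⧸ Γ)
    (x : CuspPt) :
    cosetPotential Γ f (g • q) (g • x) = cosetPotential Γ f q x + μ (cosetElt Γ g q) := by
  rw [cosetPotential, cosetPotential, ← hf _ (cosetElt_mem Γ g q)]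
  congr 1
  simp only [cosetElt, ← mul_smul]
  congr 1
  group

variable [Γ.FiniteIndex] (hneg : -1 ∈ Γ)

/-- A primitive from coboundary data at `S` and `S * T`, with the formula for its residue. -/
theorem exists_primitive_of_data (hμ : IsEl Γ μ) (hf : IsPotential Γ μ f) (hc : IsEl Γ c)
    {a b : SL(2, ℤ) ⧸ Γ → F} (ha : ∀ q, a q - a (S • q) = inducedCocycle Γ c S q)
    (hb : ∀ q, b q - b (ellU • q) = inducedCocycle Γ c ellU q)
    [Fintype (SL(2, ℤ) ⧸ Γ)] :
    ∃ D, IsPrimitiveFor Γ f c D ∧ residueSum hneg D =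
      ∑ q, (a q - b q) * (cosetPotential Γ f q (S • cuspInfty) - cosetPotential Γ f q cuspInfty) := by
  classical
  set A : (SL(2, ℤ) ⧸ Γ) × CuspPt → F := fun p => a p.1 * cosetPotential Γ f p.1 p.2 with hA
  set B : (SL(2, ℤ) ⧸ Γ) × CuspPt → F := fun p => b p.1 * cosetPotential Γ f p.1 p.2 with hB
  have hS2 : ∀ p : (SL(2, ℤ) ⧸ Γ) × CuspPt, S • S • p = p := fun p => by
    rw [← mul_smul, ← sq, S_pow_two_eq_neg_one, neg_one_smul_pair hneg]
  have hU3 : ∀ p : (SL(2, ℤ) ⧸ Γ) × CuspPt, ellU • ellU • ellU • p = p := fun p => by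
    rw [← mul_smul, ← mul_smul, ← pow_three', ellU_pow_three, neg_one_smul_pair hneg]
  obtain ⟨d, hd, hdS, hdU, hdneg⟩ := exists_shapiroCocycle
    (Q := (SL(2, ℤ) ⧸ Γ) × CuspPt) (neg_one_smul_pair hneg)
    (fun p => A p - A (S • p)) (fun p => B p - B (ellU • p))
    (fun p => by simp only [hS2]; ring) (fun p => by simp only [hU3]; ring)
  set C := inducedCocycle Γ c with hCdef
  have hC : IsShapiroCocycle C := isShapiroCocycle_induced hc.hom
  set φ := cosetPotential Γ f with hφ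
  have hE : ∀ g q x y, d g (q, y) - d g (q, x) = C g q * (φ q y - φ q x) := by
    intro g
    have hg : g ∈ Subgroup.closure {S, ellU} := by rw [closure_S_ellU]; trivial
    induction hg using Subgroup.closure_induction with
    | mem u hu =>
      intro q x y
      rcases hu with rfl | rfl
      · rw [hdS]
        simp only [hA, Prod.smul_mk]
        rw [hφ, cosetPotential_smul hf S q x, cosetPotential_smul hf S q y, ← ha q]
        ring
      · rw [hdU]
        simp only [hB, Prod.smul_mk]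
        rw [hφ, cosetPotential_smul hf ellU q x, cosetPotential_smul hf ellU q y, ← hb q]
        ring
    | one => intro q x y; rw [hd.map_one, hd.map_one, hC.map_one]; ring
    | mul u v _ _ hu hv =>
      intro q x y
      have h1 := hu (v • q) (v • x) (v • y)
      have h2 := hv q x y
      rw [hφ, cosetPotential_smul hf v q x, cosetPotential_smul hf v q y, ← hφ] at h1
      rw [hd, hd, hC u v q]
      simp only [Prod.smul_mk]
      linear_combination h1 + h2
    | inv u _ hu =>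
      intro q x y
      have h1 := hu (u⁻¹ • q) (u⁻¹ • x) (u⁻¹ • y)
      rw [hφ, cosetPotential_smul hf u⁻¹ q x, cosetPotential_smul hf u⁻¹ q y, ← hφ] at h1
      rw [hd.map_inv, hd.map_inv, hC.map_inv]
      simp only [Prod.smul_mk]
      linear_combination -h1
  set D : SL(2, ℤ) → CuspPt → F := fun γ x => d γ (baseCoset Γ, γ⁻¹ • x) with hD
  have hprim : IsPrimitiveFor Γ f c D := by
    refine ⟨fun u hu v hv x => ?_, fun γ hγ x y => ?_, fun e he ho x => ?_⟩
    · simp only [hD, hd u v, Prod.smul_mk, smul_baseCoset_eq_iff.2 hv, _root_.mul_inv_rev, mul_smul,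
        smul_inv_smul]
    · simp only [hD]
      rw [hE, hCdef, inducedCocycle_baseCoset hc.hom hγ]
      have hr : (baseCoset Γ).out⁻¹ ∈ Γ := Γ.inv_mem out_baseCoset_mem
      simp only [hφ, cosetPotential, hf _ hr, hf _ (Γ.inv_mem hγ)]
      ring
    · set w : (SL(2, ℤ) ⧸ Γ) × CuspPt := (baseCoset Γ, e⁻¹ • x)
      have hw : e • baseCoset Γ = baseCoset Γ := smul_baseCoset_eq_iff.2 he
      obtain ⟨r, u, k, hu, hre⟩ := exists_conj_of_isOfFinOrder ho
      have hfix : u ^ k • r⁻¹ • baseCoset Γ = r⁻¹ • baseCoset Γ := by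
        rw [eq_inv_smul_iff, ← mul_smul, ← mul_smul]
        rcases hre with h | h
        · rwa [h] at hw
        · rw [h, ← neg_one_mul, mul_smul, neg_one_smul_coset hneg] at hw; exact hw
      have key : ∀ z, d (r * u ^ k * r⁻¹) (baseCoset Γ, z) = 0 := by
        intro z
        set q₁ := r⁻¹ • baseCoset Γ
        have hmem : cosetElt Γ (u ^ k) q₁ ∈ Γ := cosetElt_mem Γ _ _
        have htor : μ (cosetElt Γ (u ^ k) q₁) = 0 := by
          refine hμ.torsion _ hmem ?_
          rw [cosetElt, hfix]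
          have huk : IsOfFinOrder (u ^ k) := by
            rcases hu with rfl | rfl
            · exact isOfFinOrder_zpow isOfFinOrder_S k
            · exact isOfFinOrder_zpow isOfFinOrder_ellU k
          simpa using isOfFinOrder_conj_iff (g := (q₁.out)⁻¹).2 huk
        have hinv : ∀ x', φ q₁ (u ^ k • x') = φ q₁ x' := by
          intro x'
          conv_lhs => rw [← hfix]
          rw [hφ, cosetPotential_smul hf, htor, add_zero]
        have hmid : d (u ^ k) (q₁, r⁻¹ • z) = 0 := by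
          rcases hu with rfl | rfl
          · have h := congrFun (hd.zpow_eq_of_eq (isShapiroCocycle_cobdry A) hdS k) (q₁, r⁻¹ • z)
            rw [h, shapiroCobdry]
            simp only [hA, Prod.smul_mk, hfix, hinv, sub_self]
          · have h := congrFun (hd.zpow_eq_of_eq (isShapiroCocycle_cobdry B) hdU k) (q₁, r⁻¹ • z)
            rw [h, shapiroCobdry]
            simp only [hB, Prod.smul_mk, hfix, hinv, sub_self]
        have hout : d r (q₁, u ^ k • r⁻¹ • z) = d r (q₁, r⁻¹ • z) := by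
          rw [← sub_eq_zero, hE, hinv]
          ring
        rw [hd, hd, hd.map_inv]
        simp only [Prod.smul_mk]
        rw [hfix, hout, hmid]
        ring
      show d e (baseCoset Γ, e⁻¹ • x) = 0
      rcases hre with h | h
      · rw [h]; exact key _
      · rw [h, hd.map_neg hdneg]; exact key _
  refine ⟨D, hprim, ?_⟩
  rw [← residueSum_cores (Γ := ⊤) (Subgroup.mem_top _) le_top hneg hprim.cocycle
      (hprim.neg_one hneg),
    residueSum_top (cores_isCocycleOn le_top hprim.cocycle)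
      (cores_neg_one hneg (hprim.neg_one hneg)), cores, cosetsIn_top]
  have hTinf : (T : SL(2, ℤ)) • cuspInfty = cuspInfty := by simpa using T_zpow_smul_cuspInfty 1
  have hT : ∀ i : SL(2, ℤ) ⧸ Γ, D (cosetElt Γ T i) (((T • i).out)⁻¹ • cuspInfty) =
      d i.out (baseCoset Γ, (i.out)⁻¹ • cuspInfty) + d T (i, cuspInfty) -
        d (T • i).out (baseCoset Γ, ((T • i).out)⁻¹ • cuspInfty) := by
    intro i
    have hbase : ∀ j : SL(2, ℤ) ⧸ Γ, j.out • baseCoset Γ = j := by
      intro j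
      rw [baseCoset, MulAction.Quotient.smul_mk, smul_eq_mul, mul_one, QuotientGroup.out_eq']
    have hx : (cosetElt Γ T i)⁻¹ • ((T • i).out)⁻¹ • cuspInfty = (i.out)⁻¹ • cuspInfty := by
      rw [smul_inv_out_smul, inv_smul_eq_iff.2 hTinf.symm]
    simp only [hD, hx]
    rw [cosetElt, hd, hd, hd.map_inv]
    simp only [Prod.smul_mk, hbase, smul_inv_smul, hTinf]
    rw [inv_smul_eq_iff.2 (hbase (T • i)).symm]
    ring
  rw [sum_congr rfl fun i _ => hT i, sum_sub_distrib, sum_add_distrib]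
  have hperm : ∑ i : SL(2, ℤ) ⧸ Γ, d (T • i).out (baseCoset Γ, ((T • i).out)⁻¹ • cuspInfty) =
      ∑ i : SL(2, ℤ) ⧸ Γ, d i.out (baseCoset Γ, (i.out)⁻¹ • cuspInfty) :=
    Equiv.sum_comp (MulAction.toPerm T)
      (fun i : SL(2, ℤ) ⧸ Γ => d i.out (baseCoset Γ, (i.out)⁻¹ • cuspInfty))
  rw [hperm, add_sub_cancel_left]
  have hUinf : (ellU : SL(2, ℤ)) • cuspInfty = S • cuspInfty := by rw [ellU, mul_smul, hTinf]
  have hdT : ∀ i : SL(2, ℤ) ⧸ Γ, d T (i, cuspInfty) =
      A (ellU • i, S • cuspInfty) - A (S • ellU • i, cuspInfty) +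
        (b i * φ i cuspInfty - B (ellU • i, S • cuspInfty)) := by
    intro i
    rw [hd.map_T hdneg, hdS, hdU]
    simp only [Prod.smul_mk, hUinf, hB, hφ]
    rw [show (S : SL(2, ℤ)) • S • cuspInfty = cuspInfty by
      rw [← mul_smul, ← sq, S_pow_two_eq_neg_one, neg_one_smul_cusp]]
  rw [sum_congr rfl fun i _ => hdT i, sum_add_distrib, sum_sub_distrib, sum_sub_distrib]
  have e1 : ∑ i : SL(2, ℤ) ⧸ Γ, A (ellU • i, S • cuspInfty) = ∑ q, a q * φ q (S • cuspInfty) :=
    Equiv.sum_comp (MulAction.toPerm ellU) (fun q : SL(2, ℤ) ⧸ Γ => a q * φ q (S • cuspInfty))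
  have e2 : ∑ i : SL(2, ℤ) ⧸ Γ, A (S • ellU • i, cuspInfty) = ∑ q, a q * φ q cuspInfty :=
    (Equiv.sum_comp (MulAction.toPerm ellU)
      (fun q : SL(2, ℤ) ⧸ Γ => a (S • q) * φ (S • q) cuspInfty)).trans
      (Equiv.sum_comp (MulAction.toPerm (S : SL(2, ℤ)))
        (fun q : SL(2, ℤ) ⧸ Γ => a q * φ q cuspInfty))
  have e3 : ∑ i : SL(2, ℤ) ⧸ Γ, B (ellU • i, S • cuspInfty) = ∑ q, b q * φ q (S • cuspInfty) :=
    Equiv.sum_comp (MulAction.toPerm ellU) (fun q : SL(2, ℤ) ⧸ Γ => b q * φ q (S • cuspInfty))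
  rw [e1, e2, e3]
  simp only [sub_mul, mul_sub, sum_sub_distrib]
  ring

include hneg in
theorem exists_primitive (hμ : IsEl Γ μ) (hf : IsPotential Γ μ f) (hc : IsEl Γ c) :
    ∃ D, IsPrimitiveFor Γ f c D := by
  letI : Fintype (SL(2, ℤ) ⧸ Γ) := Fintype.ofFinite _
  obtain ⟨a, ha⟩ := exists_cobdry_induced hc isOfFinOrder_S
  obtain ⟨b, hb⟩ := exists_cobdry_induced hc isOfFinOrder_ellU
  obtain ⟨D, hD, -⟩ := exists_primitive_of_data hneg hμ hf hc ha hb
  exact ⟨D, hD⟩

end FermatLib.Modular.Residue
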