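import Fermat.Agent.Modular.Residue.Pairing
import Mathlib.LinearAlgebra.Dual.Lemmas
import Mathlib.LinearAlgebra.StdBasis

/-!
# The residue pairing over a field is nondegenerate
-/

set_option autoImplicit false
set_option linter.unusedSectionVars false
set_option linter.style.haveILetI false

noncomputable section

namespace FermatLib.Modular.Residue

open Matrix Matrix.SpecialLinearGroup ModularGroup MulAction Finset
open scoped MatrixGroups

section Ring

variable {F : Type*} [CommRing F] {Γ : Subgroup SL(2, ℤ)} (hneg : -1 ∈ Γ)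

include hneg in
/-- A function on the cosets gives an additive function killing the elements of finite order. -/
theorem exists_isEl_of_cosetFun (η : SL(2, ℤ) ⧸ Γ → F) :
    ∃ (c : SL(2, ℤ) → F) (m : SL(2, ℤ) ⧸ Γ → F), IsEl Γ c ∧
      (∀ q, (η q + m q) - (η (S • q) + m (S • q)) = inducedCocycle Γ c S q) ∧
      (∀ q, m q - m (ellU • q) = inducedCocycle Γ c ellU q) := by
  have hnegX : ∀ q : SL(2, ℤ) ⧸ Γ, (-1 : SL(2, ℤ)) • q = q := neg_one_smul_coset hneg
  obtain ⟨d, hd, hdS, hdU, hdneg⟩ := exists_shapiroCocycle hnegX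
    (fun q => η q - η (S • q)) (fun _ => 0)
    (fun q => by
      rw [show (S : SL(2, ℤ)) • S • q = q by
        rw [← mul_smul, ← sq, S_pow_two_eq_neg_one, hnegX]]
      ring)
    (fun _ => by ring)
  have hbase : ∀ j : SL(2, ℤ) ⧸ Γ, j.out • baseCoset Γ = j := by
    intro j
    rw [baseCoset, MulAction.Quotient.smul_mk, smul_eq_mul, mul_one, QuotientGroup.out_eq']
  set c : SL(2, ℤ) → F := fun g => d g (baseCoset Γ) with hc
  set m : SL(2, ℤ) ⧸ Γ → F := fun q => d q.out (baseCoset Γ) with hm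
  have hC : ∀ g q, inducedCocycle Γ c g q = d g q + m q - m (g • q) := by
    intro g q
    simp only [inducedCocycle, hc, hm, cosetElt]
    rw [hd, hd, hd.map_inv, hbase q, inv_smul_eq_iff.2 (hbase (g • q)).symm]
    ring
  have hel : IsEl Γ c := by
    refine ⟨fun a _ b hb => ?_, fun e he ho => ?_⟩
    · show d (a * b) (baseCoset Γ) = _
      rw [hd, smul_baseCoset_eq_iff.2 hb]
    · have hw : e • baseCoset Γ = baseCoset Γ := smul_baseCoset_eq_iff.2 he
      obtain ⟨r, u, k, hu, hre⟩ := exists_conj_of_isOfFinOrder ho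
      have hfix : u ^ k • r⁻¹ • baseCoset Γ = r⁻¹ • baseCoset Γ := by
        rw [eq_inv_smul_iff, ← mul_smul, ← mul_smul]
        rcases hre with h | h
        · rwa [h] at hw
        · rw [h, ← neg_one_mul, mul_smul, hnegX] at hw; exact hw
      have key : d (r * u ^ k * r⁻¹) (baseCoset Γ) = 0 := by
        have hmid : d (u ^ k) (r⁻¹ • baseCoset Γ) = 0 := by
          rcases hu with rfl | rfl
          · rw [hd.zpow_eq_of_eq (isShapiroCocycle_cobdry η) hdS k, shapiroCobdry, hfix, sub_self]
          · rw [hd.zpow_eq_of_eq (isShapiroCocycle_cobdry (0 : SL(2, ℤ) ⧸ Γ → F))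
              (by rw [hdU]; funext q; simp [shapiroCobdry]) k]
            simp [shapiroCobdry]
        rw [hd, hd, hd.map_inv, hfix, hmid]
        ring
      show d e (baseCoset Γ) = 0
      rcases hre with h | h
      · rw [h]; exact key
      · rw [h, hd.map_neg hdneg]; exact key
  refine ⟨c, m, hel, fun q => ?_, fun q => ?_⟩
  · rw [hC, hdS]; ring
  · rw [hC, hdU]; ring

end Ring

variable {F : Type*} [Field F] {Γ : Subgroup SL(2, ℤ)} [Γ.FiniteIndex] (hneg : -1 ∈ Γ)
  {μ : SL(2, ℤ) → F} {f : CuspPt → F}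

/-- A potential pairing to zero with everything is constant. -/
theorem potential_const_of_pairValue_eq_zero (hμ : IsEl Γ μ) (hf : IsPotential Γ μ f)
    (h : ∀ c, IsEl Γ c → pairValue hneg f c = 0) (g : SL(2, ℤ)) :
    f (g • cuspInfty) = f cuspInfty := by
  classical
  letI : Fintype (SL(2, ℤ) ⧸ Γ) := Fintype.ofFinite _
  have hedge : ∀ q : SL(2, ℤ) ⧸ Γ,
      cosetPotential Γ f q (S • cuspInfty) = cosetPotential Γ f q cuspInfty := by
    intro q
    obtain ⟨c, m, hc, ha, hb⟩ := exists_isEl_of_cosetFun hneg (Pi.single q (1 : F))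
    obtain ⟨D, hD, hres⟩ := exists_primitive_of_data hneg hμ hf hc ha hb
    have h0 := h c hc
    rw [pairValue_eq hneg hD, hres, Finset.sum_eq_single q] at h0
    · simpa [sub_eq_zero] using h0
    · intro b _ hb'
      simp [Pi.single_eq_of_ne hb']
    · exact fun hq => absurd (mem_univ q) hq
  have hS : ∀ g : SL(2, ℤ), f ((g * S) • cuspInfty) = f (g • cuspInfty) := by
    intro g
    set q : SL(2, ℤ) ⧸ Γ := ((g⁻¹ : SL(2, ℤ)) : SL(2, ℤ) ⧸ Γ)
    have hmem : (q.out)⁻¹ * g⁻¹ ∈ Γ := by rw [← QuotientGroup.eq, QuotientGroup.out_eq']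
    have h1 := hedge q
    simp only [cosetPotential] at h1
    rw [show g * S = ((q.out)⁻¹ * g⁻¹)⁻¹ * ((q.out)⁻¹ * S) by group,
      show g • cuspInfty = ((q.out)⁻¹ * g⁻¹)⁻¹ • (q.out)⁻¹ • cuspInfty by
        rw [← mul_smul]; congr 1; group,
      mul_smul, mul_smul, hf _ (Γ.inv_mem hmem), hf _ (Γ.inv_mem hmem), h1]
  have hg : g ∈ Subgroup.closure {S, T} := by
    rw [SpecialLinearGroup.SL2Z_generators]; trivial
  suffices hmain : ∀ g' : SL(2, ℤ), f ((g' * g) • cuspInfty) = f (g' • cuspInfty) by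
    simpa using hmain 1
  induction hg using Subgroup.closure_induction with
  | mem x hx =>
    intro g'
    rcases hx with rfl | rfl
    · exact hS g'
    · rw [mul_smul, show (T : SL(2, ℤ)) • cuspInfty = cuspInfty by
        simpa using T_zpow_smul_cuspInfty 1]
  | one => intro g'; rw [mul_one]
  | mul x y _ _ hx hy => intro g'; rw [← mul_assoc, hy, hx]
  | inv x _ hx =>
    intro g'
    have := hx (g' * x⁻¹)
    rwa [mul_assoc, inv_mul_cancel, mul_one, eq_comm] at this

variable (F Γ) in
/-- The additive functions killing elements of finite order. -/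
def elSubmodule : Submodule F (SL(2, ℤ) → F) where
  carrier := {c | IsEl Γ c}
  zero_mem' := IsEl.zero
  add_mem' := IsEl.add
  smul_mem' a _ hc := hc.smul a

/-- Nondegeneracy. -/
theorem cuspPair_nondegenerate (hμ : IsPar Γ μ)
    (h : ∀ c, IsPar Γ c → cuspPair hneg μ c = 0) : ∀ γ ∈ Γ, μ γ = 0 := by
  classical
  letI : Fintype (CuspOrbits Γ) := Fintype.ofFinite _
  set f := potentialOf Γ μ
  have hf : IsPotential Γ μ f := isPotential_potentialOf hμ
  let φ : elSubmodule F Γ →ₗ[F] (CuspOrbits Γ → F) :=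
    { toFun := fun c o => c.1 (posGen hneg o.out)
      map_add' := fun _ _ => rfl
      map_smul' := fun _ _ => rfl }
  let lam : elSubmodule F Γ →ₗ[F] F :=
    { toFun := fun c => pairValue hneg f c.1
      map_add' := fun c d => pairValue_add_right hneg hμ.toIsEl hf c.2 d.2
      map_smul' := fun a c => pairValue_smul_right hneg hμ.toIsEl hf c.2 a }
  have hker : LinearMap.ker φ ≤ LinearMap.ker lam := by
    intro c hc
    refine h c.1 ⟨c.2, fun γ hγ x hx => ?_⟩
    have hc0 : c.1 (posGen hneg x) = 0 := by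
      have hval := cuspVal_out hneg (D := fun g _ => c.1 g) c.2.hom.isCocycleOn
        (fun _ => c.2.torsion _ hneg isOfFinOrder_neg_one_SL2) x
      exact hval.symm.trans (congrFun (LinearMap.mem_ker.1 hc)
        (Quotient.mk (orbitRel Γ CuspPt) x))
    have hP := posGen_spec hneg x
    obtain ⟨n, hn⟩ := hP.gen γ hγ hx
    have hpow : c.1 (posGen hneg x ^ n) = 0 := by
      clear hn
      induction n using Int.induction_on with
      | zero => simp [c.2.hom.map_one]
      | succ n ih => rw [zpow_add_one, c.2.hom _ (Γ.zpow_mem hP.mem _) _ hP.mem, ih, hc0, add_zero]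
      | pred n ih =>
        rw [zpow_sub_one, c.2.hom _ (Γ.zpow_mem hP.mem _) _ (Γ.inv_mem hP.mem), ih,
          c.2.hom.map_inv hP.mem, hc0, neg_zero, add_zero]
    rcases hn with rfl | rfl
    · exact hpow
    · rw [← neg_one_mul, c.2.hom _ hneg _ (Γ.zpow_mem hP.mem n), hpow,
        c.2.torsion _ hneg isOfFinOrder_neg_one_SL2, add_zero]
  obtain ⟨ψ, hψ⟩ : ∃ ψ : Module.Dual F (CuspOrbits Γ → F), ψ ∘ₗ φ = lam := by
    have hmem : lam ∈ (LinearMap.ker φ).dualAnnihilator := by
      rw [Submodule.mem_dualAnnihilator]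
      exact fun c hc => hker hc
    rw [← LinearMap.range_dualMap_eq_dualAnnihilator_ker] at hmem
    exact hmem
  set k : CuspPt → F :=
    fun x => -ψ (Pi.single (Quotient.mk (orbitRel Γ CuspPt) x) 1)
  have hk : ∀ γ ∈ Γ, ∀ x, k (γ • x) = k x := fun γ hγ x => by
    simp only [k, show Quotient.mk (orbitRel Γ CuspPt) (γ • x) = Quotient.mk _ x from
      cuspOrbit_eq_iff.2 ⟨γ, hγ, rfl⟩]
  have hf' : IsPotential Γ μ (f + k) := fun γ hγ x => by
    simp only [Pi.add_apply, hf γ hγ x, hk γ hγ x]
    ring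
  have hzero : ∀ c, IsEl Γ c → pairValue hneg (f + k) c = 0 := by
    intro c hc
    have hc' : ψ (φ ⟨c, hc⟩) = pairValue hneg f c :=
      congrArg (fun L : elSubmodule F Γ →ₗ[F] F => L ⟨c, hc⟩) hψ
    rw [pairValue_add_cuspFun hneg hμ.toIsEl hf hc hk, ← hc', finsum_eq_sum_of_fintype,
      LinearMap.pi_apply_eq_sum_univ ψ, ← Finset.sum_add_distrib]
    refine Finset.sum_eq_zero fun o _ => ?_
    simp only [k, Quotient.out_eq, smul_eq_mul]
    rw [show (fun j : CuspOrbits Γ => if o = j then (1 : F) else 0) = Pi.single o 1 by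
      funext j; simp [Pi.single_apply, eq_comm]]
    show c (posGen hneg o.out) * _ + _ = 0
    ring
  intro γ hγ
  have h1 := potential_const_of_pairValue_eq_zero hneg hμ.toIsEl hf' hzero γ
  rw [hf' γ hγ] at h1
  simpa using h1

end FermatLib.Modular.Residue
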