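import Fermat.Agent.Modular.Residue.Existence

/-!
# The residue pairing of parabolic homomorphisms
-/

set_option autoImplicit false
set_option linter.unusedSectionVars false
set_option linter.style.haveILetI false

noncomputable section

namespace FermatLib.Modular.Residue

open Matrix Matrix.SpecialLinearGroup ModularGroup MulAction Finset
open scoped MatrixGroups

variable {F : Type*} [CommRing F] {Γ K : Subgroup SL(2, ℤ)} {μ μ' c c' : SL(2, ℤ) → F}
  {f f' : CuspPt → F}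

theorem exists_gamma_smul_out (x : CuspPt) :
    ∃ γ ∈ Γ, γ • (Quotient.mk (orbitRel Γ CuspPt) x).out = x :=
  cuspOrbit_eq_iff.1 (Quotient.out_eq (Quotient.mk (orbitRel Γ CuspPt) x)).symm

/-- A potential of `μ`. -/
def potentialOf (Γ : Subgroup SL(2, ℤ)) (μ : SL(2, ℤ) → F) (x : CuspPt) : F :=
  μ (exists_gamma_smul_out (Γ := Γ) x).choose

theorem isPotential_potentialOf (hμ : IsPar Γ μ) : IsPotential Γ μ (potentialOf Γ μ) := by
  intro γ hγ x
  obtain ⟨ha, hax⟩ := (exists_gamma_smul_out (Γ := Γ) x).choose_spec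
  obtain ⟨hb, hbx⟩ := (exists_gamma_smul_out (Γ := Γ) (γ • x)).choose_spec
  rw [potentialOf, potentialOf]
  set a := (exists_gamma_smul_out (Γ := Γ) x).choose
  set b := (exists_gamma_smul_out (Γ := Γ) (γ • x)).choose
  have hout : (Quotient.mk (orbitRel Γ CuspPt) (γ • x)) = Quotient.mk _ x :=
    cuspOrbit_eq_iff.2 ⟨γ, hγ, rfl⟩
  rw [hout] at hbx
  have hfix : (b⁻¹ * γ * a) • (Quotient.mk (orbitRel Γ CuspPt) x).out =
      (Quotient.mk (orbitRel Γ CuspPt) x).out := by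
    rw [mul_smul, mul_smul, hax, ← hbx, inv_smul_smul]
  have h := hμ.cusps _ (Γ.mul_mem (Γ.mul_mem (Γ.inv_mem hb) hγ) ha) _ hfix
  rw [hμ.hom _ (Γ.mul_mem (Γ.inv_mem hb) hγ) _ ha, hμ.hom _ (Γ.inv_mem hb) _ hγ,
    hμ.hom.map_inv hb] at h
  linear_combination -h

variable [Γ.FiniteIndex] (hneg : -1 ∈ Γ)

open Classical in
/-- The residue of the pair `(f, c)`. -/
def pairValue (f : CuspPt → F) (c : SL(2, ℤ) → F) : F :=
  if h : ∃ D, IsPrimitiveFor Γ f c D then residueSum hneg h.choose else 0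

theorem pairValue_eq {D : SL(2, ℤ) → CuspPt → F} (hD : IsPrimitiveFor Γ f c D) :
    pairValue hneg f c = residueSum hneg D := by
  have h : ∃ D, IsPrimitiveFor Γ f c D := ⟨D, hD⟩
  rw [pairValue, dif_pos h]
  exact residueSum_primitive_unique hneg h.choose_spec hD

theorem isPrimitiveFor_congr {D : SL(2, ℤ) → CuspPt → F} (hD : IsPrimitiveFor Γ f c D)
    (h : ∀ γ ∈ Γ, c' γ = c γ) : IsPrimitiveFor Γ f c' D :=
  ⟨hD.cocycle, fun γ hγ x y => by rw [hD.diff γ hγ x y, h γ hγ], hD.torsion⟩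

theorem pairValue_congr (hμ : IsEl Γ μ) (hf : IsPotential Γ μ f) (hc : IsEl Γ c)
    (h : ∀ γ ∈ Γ, c' γ = c γ) : pairValue hneg f c' = pairValue hneg f c := by
  obtain ⟨D, hD⟩ := exists_primitive hneg hμ hf hc
  rw [pairValue_eq hneg hD, pairValue_eq hneg (isPrimitiveFor_congr hD h)]

theorem pairValue_add_right (hμ : IsEl Γ μ) (hf : IsPotential Γ μ f) (hc : IsEl Γ c)
    (hc' : IsEl Γ c') : pairValue hneg f (c + c') = pairValue hneg f c + pairValue hneg f c' := by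
  obtain ⟨D, hD⟩ := exists_primitive hneg hμ hf hc
  obtain ⟨D', hD'⟩ := exists_primitive hneg hμ hf hc'
  rw [pairValue_eq hneg hD, pairValue_eq hneg hD', ← residueSum_add]
  refine pairValue_eq hneg ⟨hD.cocycle.add hD'.cocycle, fun γ hγ x y => ?_, fun e he ho x => ?_⟩
  · simp only [Pi.add_apply]
    linear_combination hD.diff γ hγ x y + hD'.diff γ hγ x y
  · simp [hD.torsion e he ho x, hD'.torsion e he ho x]

theorem pairValue_smul_right (hμ : IsEl Γ μ) (hf : IsPotential Γ μ f) (hc : IsEl Γ c) (a : F) :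
    pairValue hneg f (a • c) = a * pairValue hneg f c := by
  obtain ⟨D, hD⟩ := exists_primitive hneg hμ hf hc
  rw [pairValue_eq hneg hD, ← residueSum_mul]
  refine pairValue_eq hneg ⟨fun u hu v hv x => ?_, fun γ hγ x y => ?_, fun e he ho x => ?_⟩
  · simp only [hD.cocycle u hu v hv x]; ring
  · simp only [Pi.smul_apply, smul_eq_mul]
    linear_combination a * hD.diff γ hγ x y
  · simp [hD.torsion e he ho x]

theorem pairValue_smul_left (hμ : IsEl Γ μ) (hf : IsPotential Γ μ f) (hc : IsEl Γ c) (a : F) :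
    pairValue hneg (a • f) c = a * pairValue hneg f c := by
  obtain ⟨D, hD⟩ := exists_primitive hneg hμ hf hc
  rw [pairValue_eq hneg hD, ← residueSum_mul]
  refine pairValue_eq hneg ⟨fun u hu v hv x => ?_, fun γ hγ x y => ?_, fun e he ho x => ?_⟩
  · simp only [hD.cocycle u hu v hv x]; ring
  · simp only [Pi.smul_apply, smul_eq_mul]
    linear_combination a * hD.diff γ hγ x y
  · simp [hD.torsion e he ho x]

theorem pairValue_add_left (hμ : IsEl Γ μ) (hμ' : IsEl Γ μ') (hf : IsPotential Γ μ f)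
    (hf' : IsPotential Γ μ' f') (hc : IsEl Γ c) :
    pairValue hneg (f + f') c = pairValue hneg f c + pairValue hneg f' c := by
  obtain ⟨D, hD⟩ := exists_primitive hneg hμ hf hc
  obtain ⟨D', hD'⟩ := exists_primitive hneg hμ' hf' hc
  rw [pairValue_eq hneg hD, pairValue_eq hneg hD', ← residueSum_add]
  refine pairValue_eq hneg ⟨hD.cocycle.add hD'.cocycle, fun γ hγ x y => ?_, fun e he ho x => ?_⟩
  · simp only [Pi.add_apply]
    linear_combination hD.diff γ hγ x y + hD'.diff γ hγ x y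
  · simp [hD.torsion e he ho x, hD'.torsion e he ho x]

/-- Changing the potential by a function on the set of cusps. -/
theorem pairValue_add_cuspFun (hμ : IsEl Γ μ) (hf : IsPotential Γ μ f) (hc : IsEl Γ c)
    {k : CuspPt → F} (hk : ∀ γ ∈ Γ, ∀ x, k (γ • x) = k x) :
    pairValue hneg (f + k) c = pairValue hneg f c +
      ∑ᶠ o : CuspOrbits Γ, c (posGen hneg o.out) * k o.out := by
  obtain ⟨D, hD⟩ := exists_primitive hneg hμ hf hc
  have hD' : IsPrimitiveFor Γ (f + k) c (fun g x => D g x + c g * k x) := by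
    refine ⟨fun u hu v hv x => ?_, fun γ hγ x y => ?_, fun e he ho x => ?_⟩
    · simp only [hD.cocycle u hu v hv x, hc.hom u hu v hv, hk _ (Γ.inv_mem hu)]
      ring
    · simp only [Pi.add_apply]
      linear_combination hD.diff γ hγ x y
    · simp [hD.torsion e he ho x, hc.torsion e he ho]
  rw [pairValue_eq hneg hD', pairValue_eq hneg hD, residueSum_add]
  rfl

theorem pairValue_add_cuspFun_of_isPar (hμ : IsEl Γ μ) (hf : IsPotential Γ μ f) (hc : IsPar Γ c)
    {k : CuspPt → F} (hk : ∀ γ ∈ Γ, ∀ x, k (γ • x) = k x) :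
    pairValue hneg (f + k) c = pairValue hneg f c := by
  rw [pairValue_add_cuspFun hneg hμ hf hc.toIsEl hk, add_eq_left]
  refine finsum_eq_zero_of_forall_eq_zero fun o => ?_
  rw [hc.cusps _ (posGen_spec hneg o.out).mem _ (posGen_spec hneg o.out).fix, zero_mul]

/-- The pairing of parabolic homomorphisms. -/
def cuspPair (μ c : SL(2, ℤ) → F) : F := pairValue hneg (potentialOf Γ μ) c

theorem cuspPair_eq_pairValue (hμ : IsPar Γ μ) (hf : IsPotential Γ μ f) (hc : IsPar Γ c) :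
    cuspPair hneg μ c = pairValue hneg f c := by
  have hp := isPotential_potentialOf hμ
  have h := pairValue_add_cuspFun_of_isPar hneg hμ.toIsEl hf hc
    (k := potentialOf Γ μ - f) fun γ hγ x => by
      simp only [Pi.sub_apply, hp γ hγ x, hf γ hγ x]
      ring
  rwa [add_sub_cancel] at h

theorem cuspPair_eq (hμ : IsPar Γ μ) (hf : IsPotential Γ μ f) (hc : IsPar Γ c)
    {D : SL(2, ℤ) → CuspPt → F} (hD : IsPrimitiveFor Γ f c D) :
    cuspPair hneg μ c = residueSum hneg D := by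
  rw [cuspPair_eq_pairValue hneg hμ hf hc, pairValue_eq hneg hD]

theorem cuspPair_congr (hμ : IsPar Γ μ) (hc : IsPar Γ c) (h1 : ∀ γ ∈ Γ, μ' γ = μ γ)
    (h2 : ∀ γ ∈ Γ, c' γ = c γ) : cuspPair hneg μ' c' = cuspPair hneg μ c := by
  have hp := isPotential_potentialOf hμ
  rw [cuspPair_eq_pairValue hneg (hμ.congr h1) (f := potentialOf Γ μ)
      (fun γ hγ x => by rw [hp γ hγ x, h1 γ hγ])
    (hc.congr h2), pairValue_congr hneg hμ.toIsEl hp hc.toIsEl h2]
  rfl

theorem cuspPair_add_right (hμ : IsPar Γ μ) (hc : IsPar Γ c) (hc' : IsPar Γ c') :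
    cuspPair hneg μ (c + c') = cuspPair hneg μ c + cuspPair hneg μ c' :=
  pairValue_add_right hneg hμ.toIsEl (isPotential_potentialOf hμ) hc.toIsEl hc'.toIsEl

theorem cuspPair_smul_right (hμ : IsPar Γ μ) (hc : IsPar Γ c) (a : F) :
    cuspPair hneg μ (a • c) = a * cuspPair hneg μ c :=
  pairValue_smul_right hneg hμ.toIsEl (isPotential_potentialOf hμ) hc.toIsEl a

theorem cuspPair_add_left (hμ : IsPar Γ μ) (hμ' : IsPar Γ μ') (hc : IsPar Γ c) :
    cuspPair hneg (μ + μ') c = cuspPair hneg μ c + cuspPair hneg μ' c := by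
  have hp := isPotential_potentialOf hμ
  have hp' := isPotential_potentialOf hμ'
  rw [cuspPair_eq_pairValue hneg (hμ.add hμ')
    (f := potentialOf Γ μ + potentialOf Γ μ') (fun γ hγ x => by
      simp only [Pi.add_apply, hp γ hγ x, hp' γ hγ x]
      ring) hc,
    pairValue_add_left hneg hμ.toIsEl hμ'.toIsEl hp hp' hc.toIsEl]
  rfl

theorem cuspPair_smul_left (hμ : IsPar Γ μ) (hc : IsPar Γ c) (a : F) :
    cuspPair hneg (a • μ) c = a * cuspPair hneg μ c := by
  have hp := isPotential_potentialOf hμ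
  rw [cuspPair_eq_pairValue hneg (hμ.smul a)
    (f := a • potentialOf Γ μ) (fun γ hγ x => by
      simp only [Pi.smul_apply, smul_eq_mul, hp γ hγ x]
      ring) hc, pairValue_smul_left hneg hμ.toIsEl hp hc.toIsEl]
  rfl

variable [K.FiniteIndex] [Fintype (SL(2, ℤ) ⧸ K)]

/-- Restriction is adjoint to corestriction. -/
theorem cuspPair_cores (hKΓ : K ≤ Γ) (hnegK : -1 ∈ K) (hμ : IsPar Γ μ) (hc : IsPar K c) :
    cuspPair hneg μ (coresHom K Γ c) = cuspPair hnegK μ c := by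
  have hp := isPotential_potentialOf hμ
  have hpK : IsPotential K μ (potentialOf Γ μ) := hp.mono hKΓ fun _ _ => rfl
  obtain ⟨D, hD⟩ := exists_primitive hnegK (hμ.toIsEl.mono hKΓ) hpK hc.toIsEl
  rw [cuspPair_eq hnegK (hμ.mono hKΓ) hpK hc hD,
    cuspPair_eq hneg hμ hp (isPar_coresHom hKΓ hc) (isPrimitiveFor_cores hKΓ hμ.toIsEl hp hD),
    residueSum_cores hneg hKΓ hnegK hD.cocycle (hD.neg_one hnegK)]

/-- An automorphism of `Γ` induced by a positively oriented bijection of the cusps. -/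
structure CuspAut (Γ : Subgroup SL(2, ℤ)) where
  /-- The map on group elements. -/
  aut : SL(2, ℤ) → SL(2, ℤ)
  /-- The map on cusps. -/
  pt : CuspPt ≃ CuspPt
  mem : ∀ γ ∈ Γ, aut γ ∈ Γ
  map_mul : ∀ a ∈ Γ, ∀ b ∈ Γ, aut (a * b) = aut a * aut b
  map_neg : ∀ a ∈ Γ, aut (-a) = -aut a
  surj : ∀ γ ∈ Γ, ∃ δ ∈ Γ, aut δ = γ
  smul : ∀ γ ∈ Γ, ∀ x, pt (γ • x) = aut γ • pt x
  pos : ∀ γ ∈ Γ, IsPos γ → IsPos (aut γ)

namespace CuspAut

variable (w : CuspAut Γ)

theorem map_one' : w.aut 1 = 1 := by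
  have h := w.map_mul 1 Γ.one_mem 1 Γ.one_mem
  rw [one_mul] at h
  exact left_eq_mul.1 h

theorem map_inv' {a : SL(2, ℤ)} (ha : a ∈ Γ) : w.aut a⁻¹ = (w.aut a)⁻¹ := by
  have h := w.map_mul a⁻¹ (Γ.inv_mem ha) a ha
  rw [inv_mul_cancel, w.map_one'] at h
  exact eq_inv_of_mul_eq_one_left h.symm

theorem map_zpow' {a : SL(2, ℤ)} (ha : a ∈ Γ) (n : ℤ) : w.aut (a ^ n) = w.aut a ^ n := by
  induction n using Int.induction_on with
  | zero => simp [w.map_one']
  | succ n ih => rw [zpow_add_one, zpow_add_one, w.map_mul _ (Γ.zpow_mem ha _) _ ha, ih]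
  | pred n ih =>
    rw [zpow_sub_one, zpow_sub_one, w.map_mul _ (Γ.zpow_mem ha _) _ (Γ.inv_mem ha), ih,
      w.map_inv' ha]

include hneg in
theorem isEl_comp (hc : IsEl Γ c) : IsEl Γ (fun g => c (w.aut g)) where
  hom a ha b hb := by
    show c (w.aut (a * b)) = _
    rw [w.map_mul a ha b hb, hc.hom _ (w.mem a ha) _ (w.mem b hb)]
  torsion e he ho := by
    refine hc.torsion _ (w.mem e he) ?_
    obtain ⟨n, hn, hpow⟩ := isOfFinOrder_iff_pow_eq_one.1 ho
    refine isOfFinOrder_iff_pow_eq_one.2 ⟨n, hn, ?_⟩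
    rw [← zpow_natCast, ← w.map_zpow' he, zpow_natCast, hpow, w.map_one']

include hneg in
theorem isPar_comp (hc : IsPar Γ c) : IsPar Γ (fun g => c (w.aut g)) where
  toIsEl := w.isEl_comp hneg hc.toIsEl
  cusps γ hγ x hx := hc.cusps _ (w.mem γ hγ) (w.pt x) (by rw [← w.smul γ hγ, hx])

theorem isPosGen_map {x : CuspPt} {P : SL(2, ℤ)} (hP : IsPosGen Γ x P) :
    IsPosGen Γ (w.pt x) (w.aut P) where
  mem := w.mem P hP.mem
  fix := by rw [← w.smul P hP.mem, hP.fix]
  pos := w.pos P hP.mem hP.pos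
  gen γ hγ hγx := by
    obtain ⟨δ, hδ, rfl⟩ := w.surj γ hγ
    rw [← w.smul δ hδ] at hγx
    obtain ⟨n, hn⟩ := hP.gen δ hδ (w.pt.injective hγx)
    refine ⟨n, ?_⟩
    rcases hn with hn | hn
    · left; rw [hn, w.map_zpow' hP.mem]
    · right; rw [hn, w.map_neg _ (Γ.zpow_mem hP.mem n), w.map_zpow' hP.mem]

theorem orbit_map_iff (x y : CuspPt) :
    (∃ γ ∈ Γ, γ • y = x) ↔ ∃ γ ∈ Γ, γ • w.pt y = w.pt x := by
  constructor
  · rintro ⟨γ, hγ, rfl⟩
    exact ⟨w.aut γ, w.mem γ hγ, (w.smul γ hγ y).symm⟩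
  · rintro ⟨γ, hγ, h⟩
    obtain ⟨δ, hδ, rfl⟩ := w.surj γ hγ
    rw [← w.smul δ hδ] at h
    exact ⟨δ, hδ, w.pt.injective h⟩

/-- The map on the set of cusps. -/
def orbitEquiv : CuspOrbits Γ ≃ CuspOrbits Γ :=
  Quotient.congr w.pt fun x y => by
    simp only [orbitRel_apply, mem_orbit_iff]
    constructor
    · rintro ⟨⟨γ, hγ⟩, h⟩
      obtain ⟨γ', hγ', h'⟩ := (w.orbit_map_iff x y).1 ⟨γ, hγ, h⟩
      exact ⟨⟨γ', hγ'⟩, h'⟩
    · rintro ⟨⟨γ, hγ⟩, h⟩
      obtain ⟨γ', hγ', h'⟩ := (w.orbit_map_iff x y).2 ⟨γ, hγ, h⟩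
      exact ⟨⟨γ', hγ'⟩, h'⟩

/-- The pairing is invariant. -/
theorem cuspPair_comp (hμ : IsPar Γ μ) (hc : IsPar Γ c) :
    cuspPair hneg (fun g => μ (w.aut g)) (fun g => c (w.aut g)) = cuspPair hneg μ c := by
  have hp := isPotential_potentialOf hμ
  obtain ⟨D, hD⟩ := exists_primitive hneg hμ.toIsEl hp hc.toIsEl
  have hp' : IsPotential Γ (fun g => μ (w.aut g)) (fun x => potentialOf Γ μ (w.pt x)) := by
    intro γ hγ x
    show potentialOf Γ μ (w.pt (γ • x)) = _
    rw [w.smul γ hγ, hp _ (w.mem γ hγ)]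
  have hD' : IsPrimitiveFor Γ (fun x => potentialOf Γ μ (w.pt x)) (fun g => c (w.aut g))
      (fun g x => D (w.aut g) (w.pt x)) := by
    refine ⟨fun a ha b hb x => ?_, fun γ hγ x y => hD.diff _ (w.mem γ hγ) _ _,
      fun e he ho x => ?_⟩
    · show D (w.aut (a * b)) (w.pt x) = _
      rw [w.map_mul a ha b hb, hD.cocycle _ (w.mem a ha) _ (w.mem b hb),
        w.smul _ (Γ.inv_mem ha), w.map_inv' ha]
    · refine hD.torsion _ (w.mem e he) ?_ _
      obtain ⟨n, hn, hpow⟩ := isOfFinOrder_iff_pow_eq_one.1 ho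
      refine isOfFinOrder_iff_pow_eq_one.2 ⟨n, hn, ?_⟩
      rw [← zpow_natCast, ← w.map_zpow' he, zpow_natCast, hpow, w.map_one']
  rw [cuspPair_eq hneg hμ hp hc hD,
    cuspPair_eq hneg (w.isPar_comp hneg hμ) hp' (w.isPar_comp hneg hc) hD', residueSum, residueSum]
  refine finsum_eq_of_bijective w.orbitEquiv w.orbitEquiv.bijective fun o => ?_
  show D (w.aut (posGen hneg o.out)) (w.pt o.out) = _
  rw [← cuspVal_eq hneg hD.cocycle (hD.neg_one hneg) (w.isPosGen_map (posGen_spec hneg o.out)),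
    show w.orbitEquiv o = Quotient.mk _ (w.pt o.out) by
      conv_lhs => rw [← Quotient.out_eq o]
      rfl,
    cuspVal_out hneg hD.cocycle (hD.neg_one hneg)]

end CuspAut

end FermatLib.Modular.Residue
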