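import Fermat.Agent.Modular.HomsFreeProduct
import Fermat.Agent.Modular.Residue.CuspPoint
import Mathlib.GroupTheory.OrderOfElement
import Mathlib.Tactic.Abel
import Mathlib.Tactic.LinearCombination

/-!
# Elements of finite order and stabilisers of cusps, via the trace
-/

set_option autoImplicit false

noncomputable section

namespace FermatLib.Modular.Residue

open Matrix Matrix.SpecialLinearGroup ModularGroup
open scoped MatrixGroups

theorem trace_pow_add_two (g : SL(2, ℤ)) (n : ℕ) :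
    ((g ^ (n + 2) : SL(2, ℤ)) : Matrix (Fin 2) (Fin 2) ℤ).trace =
      (g : Matrix (Fin 2) (Fin 2) ℤ).trace * ((g ^ (n + 1) : SL(2, ℤ)) : Matrix (Fin 2) (Fin 2) ℤ).trace -
        ((g ^ n : SL(2, ℤ)) : Matrix (Fin 2) (Fin 2) ℤ).trace := by
  have hdet := g.det_coe
  rw [det_fin_two] at hdet
  rw [pow_succ g (n + 1), pow_succ g n, coe_mul, coe_mul]
  generalize ((g ^ n : SL(2, ℤ)) : Matrix (Fin 2) (Fin 2) ℤ) = M
  simp only [Matrix.trace_fin_two, Matrix.mul_apply, Fin.sum_univ_two]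
  linear_combination (-(M 0 0) - M 1 1) * hdet

theorem trace_sq_le_four_of_isOfFinOrder {g : SL(2, ℤ)} (h : IsOfFinOrder g) :
    (g : Matrix (Fin 2) (Fin 2) ℤ).trace ^ 2 ≤ 4 := by
  by_contra hlt
  set t := (g : Matrix (Fin 2) (Fin 2) ℤ).trace with ht
  have h3 : 3 ≤ |t| := by
    have h1 : 4 < t ^ 2 := not_le.1 hlt
    rw [← sq_abs] at h1
    nlinarith [abs_nonneg t]
  have key : ∀ n : ℕ, 2 ≤ |((g ^ n : SL(2, ℤ)) : Matrix (Fin 2) (Fin 2) ℤ).trace| ∧
      |((g ^ n : SL(2, ℤ)) : Matrix (Fin 2) (Fin 2) ℤ).trace| <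
        |((g ^ (n + 1) : SL(2, ℤ)) : Matrix (Fin 2) (Fin 2) ℤ).trace| := by
    intro n
    induction n with
    | zero => simp [← ht]; omega
    | succ n ih =>
      refine ⟨by omega, ?_⟩
      rw [trace_pow_add_two, ← ht]
      have h1 := abs_sub_abs_le_abs_sub
        (t * ((g ^ (n + 1) : SL(2, ℤ)) : Matrix (Fin 2) (Fin 2) ℤ).trace)
        (((g ^ n : SL(2, ℤ)) : Matrix (Fin 2) (Fin 2) ℤ).trace)
      rw [abs_mul] at h1
      nlinarith
  obtain ⟨n, hn, hpow⟩ := isOfFinOrder_iff_pow_eq_one.1 h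
  obtain ⟨m, rfl⟩ : ∃ m, n = m + 1 := ⟨n - 1, by omega⟩
  have := key m
  rw [hpow] at this
  simp at this
  omega

theorem trace_sq_eq_four_of_smul_eq {g : SL(2, ℤ)} {x : CuspPt} (h : g • x = x) :
    (g : Matrix (Fin 2) (Fin 2) ℤ).trace ^ 2 = 4 := by
  obtain ⟨r, hr⟩ := exists_smul_cuspInfty x
  obtain ⟨n, rfl | rfl⟩ := exists_conj_T_zpow_of_fix hr h
  · rw [trace_conj, coe_T_zpow, Matrix.trace_fin_two_of]; norm_num
  · rw [Matrix.SpecialLinearGroup.coe_neg, Matrix.trace_neg, neg_sq, trace_conj, coe_T_zpow,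
      Matrix.trace_fin_two_of]
    norm_num

theorem isOfFinOrder_neg_one_SL2 : IsOfFinOrder (-1 : SL(2, ℤ)) :=
  isOfFinOrder_iff_pow_eq_one.2 ⟨2, two_pos, by simp⟩

theorem isOfFinOrder_conj_iff {g x : SL(2, ℤ)} :
    IsOfFinOrder (g * x * g⁻¹) ↔ IsOfFinOrder x := by
  simp only [isOfFinOrder_iff_pow_eq_one, conj_pow, conj_eq_one_iff]

theorem isOfFinOrder_S : IsOfFinOrder (S : SL(2, ℤ)) :=
  isOfFinOrder_iff_pow_eq_one.2 ⟨4, by norm_num, by decide⟩

theorem isOfFinOrder_ellU : IsOfFinOrder (ellU : SL(2, ℤ)) :=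
  isOfFinOrder_iff_pow_eq_one.2 ⟨6, by norm_num, by decide⟩

theorem isOfFinOrder_neg_iff {g : SL(2, ℤ)} : IsOfFinOrder (-g) ↔ IsOfFinOrder g := by
  have h : ∀ a : SL(2, ℤ), IsOfFinOrder a → IsOfFinOrder (-a) := fun a ha => by
    rw [← neg_one_mul]
    exact (Commute.neg_one_left a).isOfFinOrder_mul isOfFinOrder_neg_one_SL2 ha
  exact ⟨fun hg => by simpa using h _ hg, h g⟩

theorem isOfFinOrder_zpow {g : SL(2, ℤ)} (h : IsOfFinOrder g) (k : ℤ) : IsOfFinOrder (g ^ k) := by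
  obtain ⟨n, hn, hpow⟩ := isOfFinOrder_iff_pow_eq_one.1 h
  refine isOfFinOrder_iff_pow_eq_one.2 ⟨n, hn, ?_⟩
  rw [← zpow_natCast, ← zpow_mul, mul_comm, zpow_mul, zpow_natCast, hpow, _root_.one_zpow]

/-- An element of finite order is, up to sign, conjugate to a power of `S` or of `S * T`. -/
theorem exists_conj_of_isOfFinOrder {g : SL(2, ℤ)} (h : IsOfFinOrder g) :
    ∃ (r x : SL(2, ℤ)) (k : ℤ), (x = S ∨ x = ellU) ∧
      (g = r * x ^ k * r⁻¹ ∨ g = -(r * x ^ k * r⁻¹)) := by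
  obtain ⟨r, x, k, hx, e⟩ := isConjBasic_of_trace_sq_le_four g (trace_sq_le_four_of_isOfFinOrder h)
  rcases hx with hx | hx | rfl
  · exact ⟨r, x, k, Or.inl hx, e⟩
  · exact ⟨r, x, k, Or.inr hx, e⟩
  have hT : IsOfFinOrder (T ^ k : SL(2, ℤ)) := by
    rcases e with rfl | rfl
    · exact isOfFinOrder_conj_iff.1 h
    · exact isOfFinOrder_conj_iff.1 (isOfFinOrder_neg_iff.1 h)
  obtain ⟨n, hn, hpow⟩ := isOfFinOrder_iff_pow_eq_one.1 hT
  have hk : k = 0 := by
    rw [← zpow_natCast, ← zpow_mul, ← zpow_zero T] at hpow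
    have := T_zpow_eq_or_neg_iff.1 (Or.inl hpow)
    rcases mul_eq_zero.1 this with h0 | h0 <;> omega
  subst hk
  exact ⟨r, S, 0, Or.inl rfl, by simpa using e⟩

/-- Small trace means finite order or fixing a cusp. -/
theorem isOfFinOrder_or_exists_fix {g : SL(2, ℤ)}
    (h : (g : Matrix (Fin 2) (Fin 2) ℤ).trace ^ 2 ≤ 4) :
    IsOfFinOrder g ∨ ∃ x : CuspPt, g • x = x := by
  obtain ⟨r, x, k, hx, e⟩ := isConjBasic_of_trace_sq_le_four g h
  rcases hx with rfl | rfl | rfl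
  · left
    have := isOfFinOrder_conj_iff (g := r).2 (isOfFinOrder_zpow isOfFinOrder_S k)
    rcases e with rfl | rfl
    · exact this
    · exact isOfFinOrder_neg_iff.2 this
  · left
    have := isOfFinOrder_conj_iff (g := r).2 (isOfFinOrder_zpow isOfFinOrder_ellU k)
    rcases e with rfl | rfl
    · exact this
    · exact isOfFinOrder_neg_iff.2 this
  · right
    refine ⟨r • cuspInfty, ?_⟩
    rcases e with rfl | rfl
    · exact conj_T_zpow_smul rfl k
    · rw [neg_smul_cusp]; exact conj_T_zpow_smul rfl k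

end FermatLib.Modular.Residue
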