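import Fermat.Agent.Modular.Residue.Residue
import Fermat.Agent.Modular.Residue.Torsion
import Mathlib.Algebra.Ring.Basic
import Mathlib.Tactic.Ring

/-!
# Potentials, primitives and uniqueness of the residue

For an additive `μ` on `Γ` a potential is `f : ℙ¹(ℚ) → F` with `f (γ x) = f x + μ γ`.
A primitive of `(f, c)` is a cocycle `D` with `D γ y - D γ x = c γ * (f y - f x)` which is zero on
elements of finite order. Its residue does not depend on `D`.
-/

set_option autoImplicit false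
set_option linter.unusedSectionVars false
set_option linter.style.haveILetI false

noncomputable section

namespace FermatLib.Modular.Residue

open Matrix Matrix.SpecialLinearGroup ModularGroup Finset MulAction
open scoped MatrixGroups

variable {F : Type*} [CommRing F]

/-- `c` is additive on `Γ` and kills its elements of finite order. -/
structure IsEl (Γ : Subgroup SL(2, ℤ)) (c : SL(2, ℤ) → F) : Prop where
  hom : IsHomOn Γ c
  torsion : ∀ e ∈ Γ, IsOfFinOrder e → c e = 0

/-- `c` moreover kills the stabilisers of the cusps. -/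
structure IsPar (Γ : Subgroup SL(2, ℤ)) (c : SL(2, ℤ) → F) : Prop extends IsEl Γ c where
  cusps : ∀ γ ∈ Γ, ∀ x : CuspPt, γ • x = x → c γ = 0

/-- `f` is a potential of `μ`. -/
def IsPotential (Γ : Subgroup SL(2, ℤ)) (μ : SL(2, ℤ) → F) (f : CuspPt → F) : Prop :=
  ∀ γ ∈ Γ, ∀ x, f (γ • x) = f x + μ γ

/-- `D` is a primitive of the pair `(f, c)`. -/
structure IsPrimitiveFor (Γ : Subgroup SL(2, ℤ)) (f : CuspPt → F) (c : SL(2, ℤ) → F)
    (D : SL(2, ℤ) → CuspPt → F) : Prop where
  cocycle : IsCocycleOn Γ D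
  diff : ∀ γ ∈ Γ, ∀ x y, D γ y - D γ x = c γ * (f y - f x)
  torsion : ∀ e ∈ Γ, IsOfFinOrder e → ∀ x, D e x = 0

variable {Γ K : Subgroup SL(2, ℤ)} {f g : CuspPt → F} {c c' μ : SL(2, ℤ) → F}
  {D D' : SL(2, ℤ) → CuspPt → F}

theorem IsPrimitiveFor.neg_one (hD : IsPrimitiveFor Γ f c D) (hneg : -1 ∈ Γ) (x : CuspPt) :
    D (-1) x = 0 :=
  hD.torsion _ hneg isOfFinOrder_neg_one_SL2 x

theorem IsPotential.mono {μ' : SL(2, ℤ) → F} (hf : IsPotential Γ μ f) (hKΓ : K ≤ Γ)
    (h : ∀ γ ∈ K, μ' γ = μ γ) : IsPotential K μ' f := fun γ hγ x => by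
  rw [hf γ (hKΓ hγ) x, h γ hγ]

theorem IsEl.congr (hc : IsEl Γ c) (h : ∀ γ ∈ Γ, c' γ = c γ) : IsEl Γ c' where
  hom a ha b hb := by rw [h _ (Γ.mul_mem ha hb), h a ha, h b hb, hc.hom a ha b hb]
  torsion e he ho := by rw [h e he, hc.torsion e he ho]

theorem IsPar.congr (hc : IsPar Γ c) (h : ∀ γ ∈ Γ, c' γ = c γ) : IsPar Γ c' where
  toIsEl := hc.toIsEl.congr h
  cusps γ hγ x hx := by rw [h γ hγ, hc.cusps γ hγ x hx]

theorem IsEl.mono (hc : IsEl Γ c) (h : K ≤ Γ) : IsEl K c where
  hom := hc.hom.mono h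
  torsion e he ho := hc.torsion e (h he) ho

theorem IsPar.mono (hc : IsPar Γ c) (h : K ≤ Γ) : IsPar K c where
  toIsEl := hc.toIsEl.mono h
  cusps γ hγ x hx := hc.cusps γ (h hγ) x hx

theorem IsEl.zero : IsEl Γ (0 : SL(2, ℤ) → F) where
  hom _ _ _ _ := by simp
  torsion _ _ _ := rfl

theorem IsPar.zero : IsPar Γ (0 : SL(2, ℤ) → F) where
  toIsEl := IsEl.zero
  cusps _ _ _ _ := rfl

theorem IsEl.add (hc : IsEl Γ c) (hc' : IsEl Γ c') : IsEl Γ (c + c') where
  hom a ha b hb := by simp [hc.hom a ha b hb, hc'.hom a ha b hb, add_add_add_comm]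
  torsion e he ho := by simp [hc.torsion e he ho, hc'.torsion e he ho]

theorem IsPar.add (hc : IsPar Γ c) (hc' : IsPar Γ c') : IsPar Γ (c + c') where
  toIsEl := hc.toIsEl.add hc'.toIsEl
  cusps γ hγ x hx := by simp [hc.cusps γ hγ x hx, hc'.cusps γ hγ x hx]

theorem IsEl.smul (hc : IsEl Γ c) (a : F) : IsEl Γ (a • c) where
  hom x hx y hy := by simp [hc.hom x hx y hy, mul_add]
  torsion e he ho := by simp [hc.torsion e he ho]

theorem IsPar.smul (hc : IsPar Γ c) (a : F) : IsPar Γ (a • c) where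
  toIsEl := hc.toIsEl.smul a
  cusps γ hγ x hx := by simp [hc.cusps γ hγ x hx]

section Cores

variable [Fintype (SL(2, ℤ) ⧸ K)]

theorem isEl_coresHom (hKΓ : K ≤ Γ) (hc : IsEl K c) : IsEl Γ (coresHom K Γ c) where
  hom := coresHom_isHomOn hKΓ hc.hom
  torsion e he ho := by
    have hcoc : IsCocycleOn K (fun g (_ : CuspPt) => c g) := hc.hom.isCocycleOn
    refine cores_eq_zero hKΓ hcoc he cuspInfty (fun _ _ _ => rfl) fun i _ n hn => ?_
    refine hc.torsion _ ?_ ?_
    · rw [← zpow_natCast, ← fix_iff_pow_mem, zpow_natCast]; exact hn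
    · simpa using isOfFinOrder_conj_iff (g := (i.out)⁻¹).2 (ho.pow (n := n))

theorem isPar_coresHom (hKΓ : K ≤ Γ) (hc : IsPar K c) : IsPar Γ (coresHom K Γ c) where
  toIsEl := isEl_coresHom hKΓ hc.toIsEl
  cusps γ hγ x hx := by
    have hcoc : IsCocycleOn K (fun g (_ : CuspPt) => c g) := hc.hom.isCocycleOn
    refine cores_eq_zero hKΓ hcoc hγ x (fun _ _ _ => rfl) fun i _ n hn => ?_
    refine hc.cusps _ ?_ ((i.out)⁻¹ • x) ?_
    · rw [← zpow_natCast, ← fix_iff_pow_mem, zpow_natCast]; exact hn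
    · rw [mul_smul, mul_smul, smul_inv_smul, ← zpow_natCast, zpow_smul_eq_self hx]

theorem isPrimitiveFor_cores (hKΓ : K ≤ Γ) (hμ : IsEl Γ μ) (hf : IsPotential Γ μ f)
    (hD : IsPrimitiveFor K f c D) :
    IsPrimitiveFor Γ f (coresHom K Γ c) (cores K Γ D) where
  cocycle := cores_isCocycleOn hKΓ hD.cocycle
  diff γ hγ x y := by
    simp only [cores, coresHom, Finset.sum_mul, ← Finset.sum_sub_distrib]
    refine sum_congr rfl fun i hi => ?_
    have hr : (γ • i).out ∈ Γ := mem_cosetsIn.1 ((smul_mem_cosetsIn hKΓ hγ).2 hi)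
    rw [hD.diff _ (cosetElt_mem K γ i), hf _ (Γ.inv_mem hr), hf _ (Γ.inv_mem hr)]
    ring
  torsion e he ho x := by
    refine cores_eq_zero hKΓ hD.cocycle he x (fun i hi j => ?_) fun i _ n hn => ?_
    · have hr : (e • i).out ∈ Γ := mem_cosetsIn.1 ((smul_mem_cosetsIn hKΓ he).2 hi)
      have h := hD.diff _ (cosetElt_mem K e i) (((e • i).out)⁻¹ • x)
        (((e • i).out)⁻¹ • e ^ j • x)
      rw [hf _ (Γ.inv_mem hr), hf _ (Γ.inv_mem hr), hf _ (Γ.zpow_mem he j),
        hμ.torsion _ (Γ.zpow_mem he j) (isOfFinOrder_zpow ho j)] at h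
      rw [← sub_eq_zero, h]
      ring
    · refine hD.torsion _ ?_ ?_ _
      · rw [← zpow_natCast, ← fix_iff_pow_mem, zpow_natCast]; exact hn
      · simpa using isOfFinOrder_conj_iff (g := (i.out)⁻¹).2 (ho.pow (n := n))

end Cores

section Unique

variable [Γ.FiniteIndex] (hneg : -1 ∈ Γ)

/-- An additive function on `SL(2, ℤ)` killing elements of finite order is zero. -/
theorem IsEl.eq_zero_of_top {v : SL(2, ℤ) → F} (hv : IsEl ⊤ v) (g : SL(2, ℤ)) : v g = 0 := by
  have hg : g ∈ Subgroup.closure {S, ellU} := by rw [closure_S_ellU]; trivial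
  induction hg using Subgroup.closure_induction with
  | mem x hx =>
    rcases hx with rfl | rfl
    · exact hv.torsion _ trivial isOfFinOrder_S
    · exact hv.torsion _ trivial isOfFinOrder_ellU
  | one => exact hv.hom.map_one
  | mul x y _ _ hx hy => rw [hv.hom x trivial y trivial, hx, hy, add_zero]
  | inv x _ hx => rw [hv.hom.map_inv (Subgroup.mem_top x), hx, neg_zero]

theorem residueSum_hom_eq_zero {v : SL(2, ℤ) → F} (hv : IsEl Γ v) :
    residueSum hneg (fun g _ => v g) = 0 := by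
  letI : Fintype (SL(2, ℤ) ⧸ Γ) := Fintype.ofFinite _
  have htop := isEl_coresHom (Γ := ⊤) le_top hv
  rw [← residueSum_cores (Γ := ⊤) (Subgroup.mem_top _) le_top hneg hv.hom.isCocycleOn
    (fun _ => hv.torsion _ hneg isOfFinOrder_neg_one_SL2),
    show cores Γ ⊤ (fun g (_ : CuspPt) => v g) = fun g _ => coresHom Γ ⊤ v g from rfl,
    residueSum_top htop.hom.isCocycleOn
      (fun _ => htop.torsion _ (Subgroup.mem_top _) isOfFinOrder_neg_one_SL2)]
  exact htop.eq_zero_of_top _

theorem residueSum_congr (h : ∀ γ ∈ Γ, ∀ x, D γ x = D' γ x) :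
    residueSum hneg D = residueSum hneg D' :=
  finsum_congr fun o => h _ (posGen_spec hneg o.out).mem _

theorem residueSum_add (D D' : SL(2, ℤ) → CuspPt → F) :
    residueSum hneg (fun g x => D g x + D' g x) = residueSum hneg D + residueSum hneg D' :=
  finsum_add_distrib (Set.toFinite _) (Set.toFinite _)

theorem residueSum_mul (a : F) (D : SL(2, ℤ) → CuspPt → F) :
    residueSum hneg (fun g x => a * D g x) = a * residueSum hneg D :=
  (mul_finsum' _ _ (Set.toFinite _)).symm

theorem residueSum_primitive_unique (hD : IsPrimitiveFor Γ f c D) (hD' : IsPrimitiveFor Γ f c D') :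
    residueSum hneg D = residueSum hneg D' := by
  have hv : IsEl Γ (fun g => D g cuspInfty - D' g cuspInfty) := by
    refine ⟨fun a ha b hb => ?_, fun e he ho => by
      simp [hD.torsion e he ho, hD'.torsion e he ho]⟩
    have h1 := hD.diff b hb cuspInfty (a⁻¹ • cuspInfty)
    have h2 := hD'.diff b hb cuspInfty (a⁻¹ • cuspInfty)
    simp only [hD.cocycle a ha b hb, hD'.cocycle a ha b hb]
    linear_combination h1 - h2
  have h : residueSum hneg D = residueSum hneg
      (fun g x => D' g x + (D g cuspInfty - D' g cuspInfty)) := by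
    refine residueSum_congr hneg fun γ hγ x => ?_
    linear_combination hD.diff γ hγ cuspInfty x - hD'.diff γ hγ cuspInfty x
  rw [h, residueSum_add, residueSum_hom_eq_zero hneg hv, add_zero]

end Unique

end FermatLib.Modular.Residue
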