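import Fermat.Agent.Modular.Residue.Cocycle
import Fermat.Agent.Modular.Residue.CuspPoint
import Mathlib.Data.Fintype.Quotient
import Mathlib.GroupTheory.GroupAction.SubMulAction

/-!
# The residue of a cocycle at the cusps, and its compatibility with corestriction
-/

set_option autoImplicit false
set_option linter.unusedSectionVars false
set_option linter.style.haveILetI false

noncomputable section

namespace FermatLib.Modular.Residue

open Matrix Matrix.SpecialLinearGroup ModularGroup MulAction Finset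
open scoped MatrixGroups

variable {F : Type*} [AddCommGroup F] {Γ : Subgroup SL(2, ℤ)}

/-- The cusps of `Γ`. -/
abbrev CuspOrbits (Γ : Subgroup SL(2, ℤ)) := Quotient (MulAction.orbitRel Γ CuspPt)

theorem cuspOrbit_eq_iff {x y : CuspPt} :
    (Quotient.mk (orbitRel Γ CuspPt) x) = Quotient.mk _ y ↔ ∃ γ ∈ Γ, γ • y = x := by
  rw [Quotient.eq, orbitRel_apply, mem_orbit_iff]
  exact ⟨fun ⟨γ, h⟩ => ⟨γ, γ.2, h⟩, fun ⟨γ, hγ, h⟩ => ⟨⟨γ, hγ⟩, h⟩⟩

instance finite_cuspOrbits [Γ.FiniteIndex] : Finite (CuspOrbits Γ) := by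
  refine Finite.of_surjective (fun i : SL(2, ℤ) ⧸ Γ =>
    Quotient.mk (orbitRel Γ CuspPt) ((i.out)⁻¹ • cuspInfty)) ?_
  intro o
  obtain ⟨x, rfl⟩ := Quotient.exists_rep o
  obtain ⟨r, rfl⟩ := exists_smul_cuspInfty x
  refine ⟨((r⁻¹ : SL(2, ℤ)) : SL(2, ℤ) ⧸ Γ), cuspOrbit_eq_iff.2 ?_⟩
  refine ⟨((r⁻¹ : SL(2, ℤ)) : SL(2, ℤ) ⧸ Γ).out⁻¹ * r⁻¹, ?_, ?_⟩
  · rw [← QuotientGroup.eq, QuotientGroup.out_eq']
  · rw [mul_smul, inv_smul_smul]

variable [Γ.FiniteIndex] (hneg : -1 ∈ Γ)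

/-- A positive generator of the stabiliser of `x` in `Γ`. -/
def posGen (x : CuspPt) : SL(2, ℤ) := (exists_isPosGen Γ hneg x).choose

theorem posGen_spec (x : CuspPt) : IsPosGen Γ x (posGen hneg x) :=
  (exists_isPosGen Γ hneg x).choose_spec

/-- The local residue of `D` at `x`. -/
def cuspVal (D : SL(2, ℤ) → CuspPt → F) (x : CuspPt) : F := D (posGen hneg x) x

theorem cuspVal_eq {D : SL(2, ℤ) → CuspPt → F} (hD : IsCocycleOn Γ D)
    (hDneg : ∀ x, D (-1) x = 0) {x : CuspPt} {P : SL(2, ℤ)} (hP : IsPosGen Γ x P) :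
    cuspVal hneg D x = D P x := by
  rcases hP.eq_or_eq_neg hneg (posGen_spec hneg x) with h | h
  · rw [cuspVal, h]
  · rw [cuspVal, h, ← neg_one_mul P, hD _ hneg _ hP.mem, hDneg, zero_add]
    congr 1
    rw [inv_smul_eq_iff, neg_one_smul_cusp]

theorem cuspVal_smul {D : SL(2, ℤ) → CuspPt → F} (hD : IsCocycleOn Γ D)
    (hDneg : ∀ x, D (-1) x = 0) {γ : SL(2, ℤ)} (hγ : γ ∈ Γ) (x : CuspPt) :
    cuspVal hneg D (γ • x) = cuspVal hneg D x := by
  have hP := posGen_spec hneg x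
  rw [cuspVal_eq hneg hD hDneg (hP.conj hγ), hD.map_conj hγ hP.mem hP.fix, cuspVal]

/-- The sum of the local residues over the cusps of `Γ`. -/
def residueSum (D : SL(2, ℤ) → CuspPt → F) : F :=
  ∑ᶠ o : CuspOrbits Γ, cuspVal hneg D o.out

theorem cuspVal_out {D : SL(2, ℤ) → CuspPt → F} (hD : IsCocycleOn Γ D)
    (hDneg : ∀ x, D (-1) x = 0) (x : CuspPt) :
    cuspVal hneg D (Quotient.mk (orbitRel Γ CuspPt) x).out = cuspVal hneg D x := by
  obtain ⟨γ, hγ, hx⟩ := cuspOrbit_eq_iff.1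
    (Quotient.out_eq (Quotient.mk (orbitRel Γ CuspPt) x))
  rw [← hx, cuspVal_smul hneg hD hDneg hγ]

variable {K : Subgroup SL(2, ℤ)} [K.FiniteIndex] [Fintype (SL(2, ℤ) ⧸ K)]

theorem cores_neg_one {H : Subgroup SL(2, ℤ)} (hneg' : -1 ∈ K)
    {D : SL(2, ℤ) → CuspPt → F}
    (hDneg : ∀ x, D (-1) x = 0) (x : CuspPt) : cores K H D (-1) x = 0 := by
  refine sum_eq_zero fun i _ => ?_
  have hfix : (-1 : SL(2, ℤ)) • i = i := by
    conv_lhs => rw [← QuotientGroup.out_eq' i, MulAction.Quotient.smul_mk]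
    conv_rhs => rw [← QuotientGroup.out_eq' i]
    rw [QuotientGroup.eq]
    simpa using hneg'
  have h : cosetElt K (-1) i = -1 := by
    rw [cosetElt, hfix]
    simp
  rw [h, hDneg]

omit [K.FiniteIndex] in
theorem fix_iff_pow_mem {P : SL(2, ℤ)} {i : SL(2, ℤ) ⧸ K} {n : ℤ} :
    P ^ n • i = i ↔ (i.out)⁻¹ * P ^ n * i.out ∈ K := by
  conv_lhs => rw [← QuotientGroup.out_eq' i, MulAction.Quotient.smul_mk, eq_comm, QuotientGroup.eq,
    smul_eq_mul]
  rw [mul_assoc]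

/-- The fibre over one cusp of `K` is one orbit of the positive generator. -/
theorem isPosGen_of_orbit (hKH : K ≤ Γ) (hneg' : -1 ∈ K) {x : CuspPt} {P : SL(2, ℤ)}
    (hP : IsPosGen Γ x P) {i : SL(2, ℤ) ⧸ K} (hi : i ∈ cosetsIn K Γ) :
    IsPosGen K ((i.out)⁻¹ • x)
      ((i.out)⁻¹ * P ^ Function.minimalPeriod (P • ·) i * i.out) where
  mem := by
    rw [← zpow_natCast, ← fix_iff_pow_mem, zpow_natCast]
    exact pow_smul_eq_iff_minimalPeriod_dvd.2 dvd_rfl
  fix := by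
    rw [mul_smul, mul_smul, smul_inv_smul]
    congr 1
    rw [← zpow_natCast]
    exact zpow_smul_eq_self hP.fix _
  pos := by
    obtain ⟨r, hr⟩ := exists_smul_cuspInfty x
    obtain ⟨a, ha0, ha, -⟩ := hP.exists_normalForm hr
    set L := Function.minimalPeriod (P • ·) i
    have h1 : IsPos (P ^ L) := by
      have h : IsPos (r * T ^ (a * (L : ℤ)) * r⁻¹) :=
        (isPos_T_zpow_iff.2 (by positivity)).conj r
      rcases ha with rfl | rfl
      · rwa [← zpow_natCast, conj_zpow, ← zpow_mul]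
      · rcases Nat.even_or_odd L with he | ho
        · rwa [he.neg_pow, ← zpow_natCast, conj_zpow, ← zpow_mul]
        · rwa [ho.neg_pow, isPos_neg_iff, ← zpow_natCast, conj_zpow, ← zpow_mul]
    simpa using h1.conj (i.out)⁻¹
  gen γ hγ hγx := by
    have hout : i.out ∈ Γ := mem_cosetsIn.1 hi
    obtain ⟨n, hn⟩ := hP.gen (i.out * γ * (i.out)⁻¹)
      (Γ.mul_mem (Γ.mul_mem hout (hKH hγ)) (Γ.inv_mem hout))
      (by rw [mul_smul, mul_smul, hγx, smul_inv_smul])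
    have hmem : (i.out)⁻¹ * P ^ n * i.out ∈ K := by
      rcases hn with hn | hn
      · rw [← hn]; simpa [mul_assoc] using hγ
      · rw [neg_eq_iff_eq_neg.1 hn.symm]
        simpa [mul_assoc] using (neg_mem_iff' hneg').2 hγ
    rw [← fix_iff_pow_mem] at hmem
    obtain ⟨k, hk⟩ := zpow_smul_eq_iff_minimalPeriod_dvd.1 hmem
    refine ⟨k, ?_⟩
    have hpow : ((i.out)⁻¹ * P ^ Function.minimalPeriod (P • ·) i * i.out) ^ k =
        (i.out)⁻¹ * P ^ n * i.out := by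
      nth_rewrite 2 [← inv_inv i.out]
      rw [conj_zpow, inv_inv, ← zpow_natCast, ← zpow_mul, ← hk]
    rw [hpow]
    rcases hn with hn | hn
    · left; rw [← hn]; group
    · right
      rw [neg_eq_iff_eq_neg.1 hn.symm]
      simp [mul_assoc]

/-- Residues commute with corestriction. -/
theorem residueSum_cores (hKH : K ≤ Γ) (hneg' : -1 ∈ K) {D : SL(2, ℤ) → CuspPt → F}
    (hD : IsCocycleOn K D) (hDneg : ∀ x, D (-1) x = 0) :
    residueSum hneg (cores K Γ D) = residueSum hneg' D := by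
  classical
  letI : Fintype (CuspOrbits Γ) := Fintype.ofFinite _
  letI : Fintype (CuspOrbits K) := Fintype.ofFinite _
  rw [residueSum, residueSum, finsum_eq_sum_of_fintype, finsum_eq_sum_of_fintype]
  set up : CuspOrbits K → CuspOrbits Γ := Quotient.map' id (fun a b h => by
    obtain ⟨γ, hγ⟩ := h
    exact ⟨⟨γ, hKH γ.2⟩, hγ⟩) with hup
  have hup_mk : ∀ y, up (Quotient.mk _ y) = Quotient.mk _ y := fun y => rfl
  rw [← sum_fiberwise_of_maps_to (s := (univ : Finset (CuspOrbits K))) (g := up)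
    (t := (univ : Finset (CuspOrbits Γ))) (fun _ _ => mem_univ _)
    (fun o => cuspVal hneg' D o.out)]
  refine sum_congr rfl fun o _ => ?_
  set x := o.out with hx
  set P := posGen hneg x with hPdef
  have hP : IsPosGen Γ x P := posGen_spec hneg x
  rw [cuspVal, ← hPdef, cores]
  have hmaps : ∀ i ∈ cosetsIn K Γ,
      Quotient.mk (orbitRel K CuspPt) ((i.out)⁻¹ • x) ∈ univ.filter fun y => up y = o := by
    intro i hi
    rw [mem_filter, hup_mk]
    refine ⟨mem_univ _, ?_⟩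
    conv_rhs => rw [← Quotient.out_eq o]
    exact cuspOrbit_eq_iff.2 ⟨(i.out)⁻¹, Γ.inv_mem (mem_cosetsIn.1 hi), rfl⟩
  rw [← sum_fiberwise_of_maps_to hmaps
    (fun i => D (cosetElt K P i) (((P • i).out)⁻¹ • x))]
  refine sum_congr rfl fun y hy => ?_
  rw [mem_filter] at hy
  obtain ⟨y, rfl⟩ := Quotient.exists_rep y
  obtain ⟨γ, hγ, hγx⟩ : ∃ γ ∈ Γ, γ • x = y := by
    have h2 := hy.2
    rw [hup_mk, ← Quotient.out_eq o, ← hx] at h2
    exact cuspOrbit_eq_iff.1 h2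
  set i₀ : SL(2, ℤ) ⧸ K := ((γ⁻¹ : SL(2, ℤ)) : SL(2, ℤ) ⧸ K)
  have hi₀ : i₀ ∈ cosetsIn K Γ := (mk_mem_cosetsIn hKH).2 (Γ.inv_mem hγ)
  have hk₀ : (i₀.out)⁻¹ * γ⁻¹ ∈ K := by rw [← QuotientGroup.eq, QuotientGroup.out_eq']
  have hy₀ : ((i₀.out)⁻¹ * γ⁻¹) • y = (i₀.out)⁻¹ • x := by rw [mul_smul, ← hγx, inv_smul_smul]
  set L := Function.minimalPeriod (P • ·) i₀ with hL
  have hgen := isPosGen_of_orbit hKH hneg' hP hi₀
  have hval : cuspVal hneg' D (Quotient.mk (orbitRel K CuspPt) y).out =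
      D ((i₀.out)⁻¹ * P ^ L * i₀.out) ((i₀.out)⁻¹ • x) := by
    rw [cuspVal_out hneg' hD hDneg, ← cuspVal_smul hneg' hD hDneg hk₀, hy₀,
      cuspVal_eq hneg' hD hDneg hgen]
  have hPx : ∀ j : ℤ, P ^ j • x = x := fun j => zpow_smul_eq_self hP.fix j
  rw [hval, sum_orbit_cosetElt hD P x i₀ (fun k j => by rw [hPx])
    (pow_smul_eq_iff_minimalPeriod_dvd.2 dvd_rfl)]
  have hset : ((cosetsIn K Γ).filter fun a =>
      Quotient.mk (orbitRel K CuspPt) ((a.out)⁻¹ • x) = Quotient.mk _ y) =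
        (range L).image fun k => P ^ k • i₀ := by
    ext a
    rw [mem_filter, mem_image]
    constructor
    · rintro ⟨ha, hay⟩
      obtain ⟨k, hk, hky⟩ := cuspOrbit_eq_iff.1 hay
      have hout : a.out ∈ Γ := mem_cosetsIn.1 ha
      have hfix : (a.out * k * γ) • x = x := by
        rw [mul_smul, mul_smul, hγx, hky, smul_inv_smul]
      obtain ⟨n, hn⟩ := hP.gen _ (Γ.mul_mem (Γ.mul_mem hout (hKH hk)) hγ) hfix
      have hcoset : a = P ^ n • i₀ := by
        conv_lhs => rw [← QuotientGroup.out_eq' a]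
        rw [MulAction.Quotient.smul_mk, smul_eq_mul, QuotientGroup.eq]
        rcases hn with hn | hn
        · rw [← hn]; simpa [mul_assoc] using hk
        · rw [neg_eq_iff_eq_neg.1 hn.symm]
          simpa [mul_assoc] using (neg_mem_iff' hneg').2 hk
      have hLpos : 0 < L := smul_minimalPeriod_pos P i₀
      have hlt := Int.emod_lt_of_pos n (Int.natCast_pos.2 hLpos)
      have hnn := Int.emod_nonneg n (Int.natCast_ne_zero.2 hLpos.ne')
      refine ⟨(n % (L : ℤ)).toNat, mem_range.2 (by omega), ?_⟩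
      rw [hcoset, ← zpow_natCast, Int.toNat_of_nonneg hnn]
      exact zpow_smul_mod_minimalPeriod P i₀ n
    · rintro ⟨k, -, rfl⟩
      have hki : P ^ k • i₀ ∈ cosetsIn K Γ := (smul_mem_cosetsIn hKH (Γ.pow_mem hP.mem k)).2 hi₀
      refine ⟨hki, cuspOrbit_eq_iff.2 ⟨cosetElt K (P ^ k) i₀ * ((i₀.out)⁻¹ * γ⁻¹),
        K.mul_mem (cosetElt_mem K _ _) hk₀, ?_⟩⟩
      rw [mul_smul, hy₀, cosetElt, mul_smul, mul_smul, smul_inv_smul, ← zpow_natCast, hPx]
  rw [hset, sum_image]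
  intro k hk l hl hkl
  refine Function.iterate_injOn_Iio_minimalPeriod (f := (P • ·)) (x := i₀) ?_ ?_ ?_
  · simpa using hk
  · simpa using hl
  · simpa [smul_iterate] using hkl

theorem residueSum_top {D : SL(2, ℤ) → CuspPt → F} (hD : IsCocycleOn ⊤ D)
    (hDneg : ∀ x, D (-1) x = 0) :
    residueSum (Subgroup.mem_top (-1 : SL(2, ℤ))) D = D T cuspInfty := by
  haveI : Subsingleton (CuspOrbits (⊤ : Subgroup SL(2, ℤ))) := by
    refine ⟨fun a b => ?_⟩
    obtain ⟨x, rfl⟩ := Quotient.exists_rep a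
    obtain ⟨y, rfl⟩ := Quotient.exists_rep b
    obtain ⟨r, rfl⟩ := exists_smul_cuspInfty x
    obtain ⟨s, rfl⟩ := exists_smul_cuspInfty y
    exact cuspOrbit_eq_iff.2 ⟨r * s⁻¹, trivial, by rw [mul_smul, inv_smul_smul]⟩
  letI : Unique (CuspOrbits (⊤ : Subgroup SL(2, ℤ))) :=
    ⟨⟨Quotient.mk _ cuspInfty⟩, fun a => Subsingleton.elim _ _⟩
  simp only [residueSum]
  rw [finsum_unique]
  show cuspVal _ D (Quotient.mk _ cuspInfty).out = _
  rw [cuspVal_out _ hD hDneg, cuspVal_eq _ hD hDneg isPosGen_top_T]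

end FermatLib.Modular.Residue
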